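import Mathlib

/-!
# Case I of Fermat's Last Theorem via Sophie Germain's theorem

Let `p` be an odd prime and `q` an auxiliary prime such that
* `x ^ p + y ^ p + z ^ p = 0` in `ZMod q` forces `x = 0 ∨ y = 0 ∨ z = 0`, and
* `p` is not a `p`-th power in `ZMod q`.
Then any solution of `a ^ p + b ^ p = c ^ p` in integers with `a`, `b` coprime has `p ∣ a * b * c`.
We instantiate this for `p = 5, 7, 11, 13` with `q = 11, 29, 23, 53`.
-/

namespace Fermat.Agent.FLTSmall

open Finset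

/-- The cofactor `Φ(y, z) = (y ^ p + z ^ p) / (y + z)` for odd `p`. -/
def cofactor (p : ℕ) (y z : ℤ) : ℤ := ∑ i ∈ range p, y ^ i * (-z) ^ (p - 1 - i)

theorem cofactor_mul {p : ℕ} (hp : Odd p) (y z : ℤ) :
    (y + z) * cofactor p y z = y ^ p + z ^ p := by
  have h := geom_sum₂_mul y (-z) p
  rw [sub_neg_eq_add, hp.neg_pow, sub_neg_eq_add] at h
  rw [mul_comm]
  exact h

theorem isCoprime_add_cofactor {p : ℕ} (hp : p.Prime) {y z : ℤ} (hyz : IsCoprime y z)
    (hpyz : ¬ (p : ℤ) ∣ y + z) : IsCoprime (y + z) (cofactor p y z) := by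
  apply isCoprime_of_prime_dvd
  · rintro ⟨h1, -⟩
    exact hpyz (h1 ▸ dvd_zero _)
  · intro ℓ hℓ h1 h2
    have h3 : ℓ ∣ y - (-z) := by rwa [sub_neg_eq_add]
    have h4 := (dvd_geom_sum₂_iff_of_dvd_sub h3).mp h2
    rcases hℓ.dvd_or_dvd h4 with h5 | h5
    · have hpp : Prime (p : ℤ) := Nat.prime_iff_prime_int.mp hp
      have hass := (hℓ.dvd_prime_iff_associated hpp).mp h5
      exact hpyz (hass.symm.dvd.trans h1)
    · have h6 : ℓ ∣ z := by
        have := hℓ.dvd_of_dvd_pow h5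
        rwa [dvd_neg] at this
      have h7 : ℓ ∣ y := by
        have := dvd_sub h1 h6
        rwa [add_sub_cancel_right] at this
      exact hℓ.not_isUnit (hyz.isUnit_of_dvd' h7 h6)

/-- The heart of Sophie Germain's theorem: the case `q ∣ x`. -/
theorem sophieGermain_aux {p q : ℕ} (hp : p.Prime) (hp2 : p ≠ 2) (hq : q.Prime)
    (h1 : ∀ x y z : ZMod q, x ^ p + y ^ p + z ^ p = 0 → x = 0 ∨ y = 0 ∨ z = 0)
    (h2 : ∀ n : ZMod q, n ^ p ≠ (p : ZMod q))
    {x y z : ℤ} (hxy : IsCoprime x y) (hyz : IsCoprime y z) (hzx : IsCoprime z x)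
    (h : x ^ p + y ^ p + z ^ p = 0)
    (hpx : ¬ (p : ℤ) ∣ x) (hpy : ¬ (p : ℤ) ∣ y) (hpz : ¬ (p : ℤ) ∣ z)
    (hqx : (q : ℤ) ∣ x) : False := by
  have : Fact q.Prime := ⟨hq⟩
  have hodd : Odd p := hp.odd_of_ne_two hp2
  have hpp : Prime (p : ℤ) := Nat.prime_iff_prime_int.mp hp
  have hqq : Prime (q : ℤ) := Nat.prime_iff_prime_int.mp hq
  have e1 : (y + z) * cofactor p y z = (-x) ^ p := by
    rw [cofactor_mul hodd, hodd.neg_pow]; linarith
  have e2 : (z + x) * cofactor p z x = (-y) ^ p := by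
    rw [cofactor_mul hodd, hodd.neg_pow]; linarith
  have e3 : (x + y) * cofactor p x y = (-z) ^ p := by
    rw [cofactor_mul hodd, hodd.neg_pow]; linarith
  have n1 : ¬ (p : ℤ) ∣ y + z := fun hd =>
    hpx (dvd_neg.mp (hpp.dvd_of_dvd_pow (e1 ▸ hd.mul_right _)))
  have n2 : ¬ (p : ℤ) ∣ z + x := fun hd =>
    hpy (dvd_neg.mp (hpp.dvd_of_dvd_pow (e2 ▸ hd.mul_right _)))
  have n3 : ¬ (p : ℤ) ∣ x + y := fun hd =>
    hpz (dvd_neg.mp (hpp.dvd_of_dvd_pow (e3 ▸ hd.mul_right _)))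
  obtain ⟨a, ha⟩ := Int.eq_pow_of_mul_eq_pow_odd_left (isCoprime_add_cofactor hp hyz n1) hodd e1
  obtain ⟨α, hα⟩ := Int.eq_pow_of_mul_eq_pow_odd_right (isCoprime_add_cofactor hp hyz n1) hodd e1
  obtain ⟨b, hb⟩ := Int.eq_pow_of_mul_eq_pow_odd_left (isCoprime_add_cofactor hp hzx n2) hodd e2
  obtain ⟨c, hc⟩ := Int.eq_pow_of_mul_eq_pow_odd_left (isCoprime_add_cofactor hp hxy n3) hodd e3
  obtain ⟨γ, hγ⟩ := Int.eq_pow_of_mul_eq_pow_odd_right (isCoprime_add_cofactor hp hxy n3) hodd e3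
  have hx0 : (x : ZMod q) = 0 := (ZMod.intCast_zmod_eq_zero_iff_dvd x q).mpr hqx
  have hy0 : (y : ZMod q) ≠ 0 := fun h0 =>
    hqq.not_isUnit (hxy.isUnit_of_dvd' hqx ((ZMod.intCast_zmod_eq_zero_iff_dvd y q).mp h0))
  have hz0 : (z : ZMod q) ≠ 0 := fun h0 =>
    hqq.not_isUnit (hzx.isUnit_of_dvd' ((ZMod.intCast_zmod_eq_zero_iff_dvd z q).mp h0) hqx)
  have ha' : (a : ZMod q) ^ p = y + z := by
    have := congrArg (Int.cast : ℤ → ZMod q) ha
    push_cast at this
    exact this.symm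
  have hb' : (b : ZMod q) ^ p = z := by
    have := congrArg (Int.cast : ℤ → ZMod q) hb
    push_cast at this
    rw [hx0, add_zero] at this
    exact this.symm
  have hc' : (c : ZMod q) ^ p = y := by
    have := congrArg (Int.cast : ℤ → ZMod q) hc
    push_cast at this
    rw [hx0, zero_add] at this
    exact this.symm
  have key : (-(a : ZMod q)) ^ p + (b : ZMod q) ^ p + (c : ZMod q) ^ p = 0 := by
    rw [hodd.neg_pow, ha', hb', hc']; ring
  rcases h1 _ _ _ key with h0 | h0 | h0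
  · have ha0 : (a : ZMod q) = 0 := neg_eq_zero.mp h0
    have hyz0 : (y : ZMod q) + z = 0 := by rw [← ha', ha0, zero_pow hp.ne_zero]
    have hz' : -(z : ZMod q) = y := by linear_combination -hyz0
    have hα' : (α : ZMod q) ^ p = (p : ZMod q) * (y : ZMod q) ^ (p - 1) := by
      have := congrArg (Int.cast : ℤ → ZMod q) hα
      rw [cofactor] at this
      push_cast at this
      rw [← this, hz']
      rw [Finset.sum_congr rfl (fun i hi => by
        rw [← pow_add, Nat.add_sub_cancel' (Nat.le_sub_one_of_lt (Finset.mem_range.mp hi))])]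
      simp
    have hγ' : (γ : ZMod q) ^ p = (y : ZMod q) ^ (p - 1) := by
      have := congrArg (Int.cast : ℤ → ZMod q) hγ
      rw [cofactor] at this
      push_cast at this
      rw [← this, hx0]
      rw [Finset.sum_eq_single 0]
      · rw [pow_zero, one_mul, Nat.sub_zero]
        exact (Nat.Prime.even_sub_one hp hp2).neg_pow _
      · intro i _ hi
        rw [zero_pow hi, zero_mul]
      · intro h0
        exact absurd (Finset.mem_range.mpr hp.pos) h0
    have hyp : (y : ZMod q) ^ (p - 1) ≠ 0 := pow_ne_zero _ hy0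
    apply h2 ((α : ZMod q) / γ)
    rw [div_pow, hα', hγ', mul_div_assoc, div_self hyp, mul_one]
  · exact hz0 (by rw [← hb', h0, zero_pow hp.ne_zero])
  · exact hy0 (by rw [← hc', h0, zero_pow hp.ne_zero])

/-- **Sophie Germain's theorem** (symmetric form). -/
theorem sophieGermain {p q : ℕ} (hp : p.Prime) (hp2 : p ≠ 2) (hq : q.Prime)
    (h1 : ∀ x y z : ZMod q, x ^ p + y ^ p + z ^ p = 0 → x = 0 ∨ y = 0 ∨ z = 0)
    (h2 : ∀ n : ZMod q, n ^ p ≠ (p : ZMod q))
    {x y z : ℤ} (hxy : IsCoprime x y) (hyz : IsCoprime y z) (hzx : IsCoprime z x)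
    (h : x ^ p + y ^ p + z ^ p = 0) : (p : ℤ) ∣ x * y * z := by
  by_contra hcon
  have hpx : ¬ (p : ℤ) ∣ x := fun hd => hcon ((hd.mul_right y).mul_right z)
  have hpy : ¬ (p : ℤ) ∣ y := fun hd => hcon ((hd.mul_left x).mul_right z)
  have hpz : ¬ (p : ℤ) ∣ z := fun hd => hcon (hd.mul_left (x * y))
  have hmod : (x : ZMod q) ^ p + (y : ZMod q) ^ p + (z : ZMod q) ^ p = 0 := by
    have := congrArg (Int.cast : ℤ → ZMod q) h
    push_cast at this
    exact this
  rcases h1 _ _ _ hmod with h0 | h0 | h0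
  · exact sophieGermain_aux hp hp2 hq h1 h2 hxy hyz hzx h hpx hpy hpz
      ((ZMod.intCast_zmod_eq_zero_iff_dvd x q).mp h0)
  · exact sophieGermain_aux hp hp2 hq h1 h2 hyz hzx hxy (by linarith) hpy hpz hpx
      ((ZMod.intCast_zmod_eq_zero_iff_dvd y q).mp h0)
  · exact sophieGermain_aux hp hp2 hq h1 h2 hzx hxy hyz (by linarith) hpz hpx hpy
      ((ZMod.intCast_zmod_eq_zero_iff_dvd z q).mp h0)

/-- Sophie Germain's theorem in Fermat form: a coprime solution of `a ^ p + b ^ p = c ^ p`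
has `p ∣ a * b * c`. -/
theorem caseI_of_sophieGermain {p q : ℕ} (hp : p.Prime) (hp2 : p ≠ 2) (hq : q.Prime)
    (h1 : ∀ x y z : ZMod q, x ^ p + y ^ p + z ^ p = 0 → x = 0 ∨ y = 0 ∨ z = 0)
    (h2 : ∀ n : ZMod q, n ^ p ≠ (p : ZMod q))
    {a b c : ℤ} (hab : IsCoprime a b) (h : a ^ p + b ^ p = c ^ p) : (p : ℤ) ∣ a * b * c := by
  have hodd : Odd p := hp.odd_of_ne_two hp2
  have hbc : IsCoprime b c := by
    have h3 : IsCoprime b (c ^ p) := by
      rw [← h]
      have : IsCoprime b (a ^ p) := (hab.symm).pow_right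
      have hb' : b ^ p = b * b ^ (p - 1) := (mul_pow_sub_one hp.ne_zero b).symm
      rw [hb']
      exact this.add_mul_left_right _
    exact (IsCoprime.pow_right_iff hp.pos).mp h3
  have hca : IsCoprime c a := by
    have h3 : IsCoprime a (c ^ p) := by
      rw [← h]
      have : IsCoprime a (b ^ p) := hab.pow_right
      have ha' : a ^ p = a * a ^ (p - 1) := (mul_pow_sub_one hp.ne_zero a).symm
      rw [ha', add_comm]
      exact this.add_mul_left_right _
    exact ((IsCoprime.pow_right_iff hp.pos).mp h3).symm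
  have h' : a ^ p + b ^ p + (-c) ^ p = 0 := by rw [hodd.neg_pow, h]; ring
  have := sophieGermain hp hp2 hq h1 h2 hab hbc.neg_right hca.neg_left h'
  simpa using this

theorem hyp1_of_pow_mem {q p : ℕ} (hq : q.Prime) (hp : p ≠ 0) (T : Finset (ZMod q))
    (hT : ∀ x : ZMod q, x ^ p = 0 ∨ x ^ p ∈ T)
    (hsum : ∀ t ∈ T, ∀ u ∈ T, ∀ v ∈ T, t + u + v ≠ 0) :
    ∀ x y z : ZMod q, x ^ p + y ^ p + z ^ p = 0 → x = 0 ∨ y = 0 ∨ z = 0 := by
  have : Fact q.Prime := ⟨hq⟩
  intro x y z h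
  rcases hT x with hx | hx
  · exact Or.inl (pow_eq_zero_iff hp |>.mp hx)
  rcases hT y with hy | hy
  · exact Or.inr (Or.inl (pow_eq_zero_iff hp |>.mp hy))
  rcases hT z with hz | hz
  · exact Or.inr (Or.inr (pow_eq_zero_iff hp |>.mp hz))
  exact absurd h (hsum _ hx _ hy _ hz)

set_option maxRecDepth 100000 in
theorem caseI_five {a b c : ℤ} (hab : IsCoprime a b) (h : a ^ 5 + b ^ 5 = c ^ 5) :
    (5 : ℤ) ∣ a * b * c :=
  caseI_of_sophieGermain (p := 5) (q := 11) (by norm_num) (by norm_num) (by norm_num)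
    (hyp1_of_pow_mem (by norm_num) (by norm_num) {1, -1} (by decide) (by decide)) (by decide) hab h

set_option maxRecDepth 100000 in
theorem caseI_seven {a b c : ℤ} (hab : IsCoprime a b) (h : a ^ 7 + b ^ 7 = c ^ 7) :
    (7 : ℤ) ∣ a * b * c :=
  caseI_of_sophieGermain (p := 7) (q := 29) (by norm_num) (by norm_num) (by norm_num)
    (hyp1_of_pow_mem (by norm_num) (by norm_num) {1, -1, 12, -12} (by decide) (by decide))
    (by decide) hab h

set_option maxRecDepth 100000 in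
theorem caseI_eleven {a b c : ℤ} (hab : IsCoprime a b) (h : a ^ 11 + b ^ 11 = c ^ 11) :
    (11 : ℤ) ∣ a * b * c :=
  caseI_of_sophieGermain (p := 11) (q := 23) (by norm_num) (by norm_num) (by norm_num)
    (hyp1_of_pow_mem (by norm_num) (by norm_num) {1, -1} (by decide) (by decide)) (by decide) hab h

set_option maxRecDepth 100000 in
theorem caseI_thirteen {a b c : ℤ} (hab : IsCoprime a b) (h : a ^ 13 + b ^ 13 = c ^ 13) :
    (13 : ℤ) ∣ a * b * c :=
  caseI_of_sophieGermain (p := 13) (q := 53) (by norm_num) (by norm_num) (by norm_num)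
    (hyp1_of_pow_mem (by norm_num) (by norm_num) {1, -1, 23, -23} (by decide) (by decide))
    (by decide) hab h

end Fermat.Agent.FLTSmall
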