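import Fermat.Agent.FLTSmall.CaseIIDefs

/-!
# FLTSmall / M5 (Case II descent): the descent  (OWNER: helper3)

Pure algebra: in a PID `R` satisfying `CaseIIData R p ζ`, the equation
`x ^ p + y ^ p = ε * (ζ - 1) ^ (p * m) * z ^ p` with `m ≥ 1`, `x, y` coprime, `ζ - 1 ∤ z` and `ε` a
unit has no solution.
-/

set_option autoImplicit false
set_option linter.unusedSectionVars false
set_option linter.unusedVariables false

namespace Fermat.Agent.FLTSmall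

namespace CaseIIData

open Finset

variable {R : Type*} [CommRing R] [IsDomain R] {p : ℕ} {ζ : R} (D : CaseIIData R p ζ)
include D

lemma lam_not_dvd_right {x y : R} (hxy : IsCoprime x y) (h : ζ - 1 ∣ x ^ p + y ^ p) :
    ¬ ζ - 1 ∣ y := by
  intro hy
  have hx : ζ - 1 ∣ x := by
    have : ζ - 1 ∣ x ^ p := (dvd_add_left (dvd_pow hy D.prime_p.ne_zero)).1 h
    exact D.lam_prime.dvd_of_dvd_pow this
  exact D.lam_not_isUnit (hxy.isUnit_of_dvd' hx hy)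

lemma lam_not_dvd_left {x y : R} (hxy : IsCoprime x y) (h : ζ - 1 ∣ x ^ p + y ^ p) :
    ¬ ζ - 1 ∣ x :=
  D.lam_not_dvd_right hxy.symm (by rwa [add_comm])

lemma geom_sum_sub_nat (a : ℕ) : ζ - 1 ∣ (∑ i ∈ range a, ζ ^ i) - (a : R) := by
  have : (∑ i ∈ range a, ζ ^ i) - (a : R) = ∑ i ∈ range a, (ζ ^ i - 1) := by
    rw [Finset.sum_sub_distrib]; simp
  rw [this]
  exact Finset.dvd_sum fun i _ => D.lam_dvd_zeta_pow_sub_one i

lemma lam_dvd_intCast {n : ℤ} (h : (p : ℤ) ∣ n) : ζ - 1 ∣ (n : R) := by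
  obtain ⟨k, rfl⟩ := h
  push_cast
  exact Dvd.dvd.mul_right D.lam_dvd_p _

lemma p_dvd_intCast {n : ℤ} (h : (p : ℤ) ∣ n) : (p : R) ∣ (n : R) := by
  obtain ⟨k, rfl⟩ := h
  push_cast
  exact Dvd.intro _ rfl

lemma exists_nat_lt_dvd {nc ny : ℤ} (hny : ¬ (p : ℤ) ∣ ny) :
    ∃ a : ℕ, a < p ∧ (p : ℤ) ∣ nc + a * ny := by
  have : Fact p.Prime := ⟨D.prime_p⟩
  have hny0 : (ny : ZMod p) ≠ 0 := by
    rwa [Ne, ZMod.intCast_zmod_eq_zero_iff_dvd]
  refine ⟨((-(nc : ZMod p)) * (ny : ZMod p)⁻¹).val, ZMod.val_lt _, ?_⟩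
  rw [← ZMod.intCast_zmod_eq_zero_iff_dvd]
  push_cast
  rw [ZMod.natCast_val, ZMod.cast_id', id]
  field_simp
  ring

lemma exists_int_inv {n : ℤ} (hn : ¬ (p : ℤ) ∣ n) : ∃ n' : ℤ, (p : ℤ) ∣ n * n' - 1 := by
  have : Fact p.Prime := ⟨D.prime_p⟩
  have hn0 : (n : ZMod p) ≠ 0 := by
    rwa [Ne, ZMod.intCast_zmod_eq_zero_iff_dvd]
  refine ⟨(((n : ZMod p)⁻¹).val : ℤ), ?_⟩
  rw [← ZMod.intCast_zmod_eq_zero_iff_dvd]
  push_cast
  rw [ZMod.natCast_val, ZMod.cast_id', id, mul_inv_cancel₀ hn0, sub_self]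

/-- Some `x + ζ ^ a y` is divisible by `(ζ - 1) ^ 2`. -/
lemma exists_sq_dvd {x y : R} (hxy : IsCoprime x y) (h : ζ - 1 ∣ x ^ p + y ^ p) :
    ∃ a, a < p ∧ (ζ - 1) ^ 2 ∣ x + ζ ^ a * y := by
  have hy := D.lam_not_dvd_right hxy h
  have hxy1 : ζ - 1 ∣ x + y := by
    rw [D.prod_formula] at h
    obtain ⟨a, -, ha⟩ := (Prime.dvd_finsetProd_iff D.lam_prime _).1 h
    have : x + y = (x + ζ ^ a * y) - (ζ ^ a - 1) * y := by ring
    rw [this]
    exact dvd_sub ha (Dvd.dvd.mul_right (D.lam_dvd_zeta_pow_sub_one a) y)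
  obtain ⟨c, hc⟩ := hxy1
  obtain ⟨nc, hnc⟩ := D.int_mod_lam c
  obtain ⟨ny, hny⟩ := D.int_mod_lam y
  have hpny : ¬ (p : ℤ) ∣ ny := by
    intro hdiv
    apply hy
    have := dvd_add hny (D.lam_dvd_intCast hdiv)
    simpa using this
  obtain ⟨a, ha, hdiv⟩ := D.exists_nat_lt_dvd (nc := nc) hpny
  refine ⟨a, ha, ?_⟩
  have hgeom : ζ ^ a - 1 = (ζ - 1) * ∑ i ∈ range a, ζ ^ i := by
    rw [mul_comm]; exact (geom_sum_mul ζ a).symm
  have key : x + ζ ^ a * y = (ζ - 1) * (c + (∑ i ∈ range a, ζ ^ i) * y) := by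
    have : x + ζ ^ a * y = (x + y) + (ζ ^ a - 1) * y := by ring
    rw [this, hc, hgeom]; ring
  rw [key, pow_two]
  apply mul_dvd_mul_left
  have h1 : c + (∑ i ∈ range a, ζ ^ i) * y - ((nc : R) + (a : R) * (ny : R)) =
      (c - nc) + ((∑ i ∈ range a, ζ ^ i) - (a : R)) * y + (a : R) * (y - ny) := by ring
  have h2 : ζ - 1 ∣ c + (∑ i ∈ range a, ζ ^ i) * y - ((nc : R) + (a : R) * (ny : R)) := by
    rw [h1]
    exact dvd_add (dvd_add hnc (Dvd.dvd.mul_right (D.geom_sum_sub_nat a) y))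
      (Dvd.dvd.mul_left hny _)
  have h3 : ζ - 1 ∣ ((nc : R) + (a : R) * (ny : R)) := by
    have : ((nc : R) + (a : R) * (ny : R)) = ((nc + a * ny : ℤ) : R) := by push_cast; ring
    rw [this]
    exact D.lam_dvd_intCast hdiv
  have := dvd_add h2 h3
  simpa using this


lemma assoc_pow_sub_pow {a b : ℕ} (ha : a < p) (hb : b < p) (hab : a ≠ b) :
    Associated (ζ - 1) (ζ ^ a - ζ ^ b) := by
  have hmem : ∀ i, ζ ^ i ∈ Polynomial.nthRootsFinset p (1 : R) := fun i => by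
    rw [Polynomial.mem_nthRootsFinset D.prime_p.pos, ← pow_mul, mul_comm, pow_mul, D.zeta_pow_p,
      one_pow]
  exact D.prim.nthRootsFinset_pairwise_associated_sub_one_sub_of_prime D.prime_p (hmem a) (hmem b)
    (fun h => hab (D.prim.pow_inj ha hb h))

lemma isUnit_one_add_zeta : IsUnit (1 + ζ) := by
  have h2p : Nat.Coprime 2 p := (Nat.coprime_primes Nat.prime_two D.prime_p).2 (Ne.symm D.odd)
  have := D.prim.geom_sum_isUnit D.two_le h2p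
  simpa [Finset.sum_range_succ] using this

lemma lam_not_dvd_unit_mul {u : Rˣ} {w : R} (h : ζ - 1 ∣ (u : R) * w) : ζ - 1 ∣ w :=
  (D.lam_prime.dvd_or_dvd h).resolve_left
    (fun hh => D.lam_prime.not_isUnit (isUnit_of_dvd_unit hh u.isUnit))

variable [IsPrincipalIdealRing R]

/-- One descent step, assuming `(ζ - 1) ^ 2 ∣ x + y`. -/
lemma step_aux {m : ℕ} (hm : 1 ≤ m) {x y z : R} {ε : Rˣ} (hxy : IsCoprime x y)
    (hz : ¬ ζ - 1 ∣ z) (h : x ^ p + y ^ p = ε * (ζ - 1) ^ (p * m) * z ^ p)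
    (hsq : (ζ - 1) ^ 2 ∣ x + y) :
    2 ≤ m ∧ ∃ (x' y' z' : R) (ε' : Rˣ), IsCoprime x' y' ∧ ¬ ζ - 1 ∣ z' ∧
      x' ^ p + y' ^ p = ε' * (ζ - 1) ^ (p * (m - 1)) * z' ^ p := by
  classical
  have hp := D.prime_p
  have hp0 : p ≠ 0 := hp.ne_zero
  have hp3 := D.three_le
  have hlam0 : ζ - 1 ≠ 0 := D.lam_ne_zero
  have hlp : Prime (ζ - 1) := D.lam_prime
  have hpm : p * m ≠ 0 := Nat.mul_ne_zero hp0 (by omega)
  -- λ ∣ x^p + y^p
  have hdiv : ζ - 1 ∣ x ^ p + y ^ p := by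
    rw [h]
    exact Dvd.dvd.mul_right (Dvd.dvd.mul_left (dvd_pow_self _ hpm) _) _
  have hx : ¬ ζ - 1 ∣ x := D.lam_not_dvd_left hxy hdiv
  have hy : ¬ ζ - 1 ∣ y := D.lam_not_dvd_right hxy hdiv
  have hxy1 : ζ - 1 ∣ x + y := (dvd_pow_self (ζ - 1) two_ne_zero).trans hsq
  -- all factors divisible by λ
  have hfac : ∀ a : ℕ, ζ - 1 ∣ x + ζ ^ a * y := fun a => by
    have : x + ζ ^ a * y = (x + y) + (ζ ^ a - 1) * y := by ring
    rw [this]
    exact dvd_add hxy1 (Dvd.dvd.mul_right (D.lam_dvd_zeta_pow_sub_one a) y)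
  choose t ht using hfac
  have ht0 : x + y = (ζ - 1) * t 0 := by simpa using ht 0
  have hlt0 : ζ - 1 ∣ t 0 := by
    obtain ⟨c, hc⟩ := hsq
    rw [ht0, pow_two, mul_assoc] at hc
    exact ⟨c, mul_left_cancel₀ hlam0 hc⟩
  have hnt : ∀ a, 0 < a → a < p → ¬ ζ - 1 ∣ t a := by
    intro a ha0 hap hdvd
    apply hy
    have h1 : (ζ - 1) ^ 2 ∣ x + ζ ^ a * y := by
      rw [ht a, pow_two]; exact mul_dvd_mul_left _ hdvd
    have h2 : (ζ - 1) ^ 2 ∣ (ζ ^ a - 1) * y := by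
      have : (ζ ^ a - 1) * y = (x + ζ ^ a * y) - (x + y) := by ring
      rw [this]; exact dvd_sub h1 hsq
    have hnd : ¬ p ∣ a := Nat.not_dvd_of_pos_of_lt ha0 hap
    obtain ⟨u, hu⟩ := D.assoc_zeta_pow_sub_one hnd
    rw [← hu, pow_two, mul_assoc] at h2
    have h3 : ζ - 1 ∣ ↑u * y := (mul_dvd_mul_iff_left hlam0).1 h2
    exact D.lam_not_dvd_unit_mul h3
  -- the product of the `t a`
  have hprod : ∏ a ∈ range p, t a = ε * (ζ - 1) ^ (p * (m - 1)) * z ^ p := by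
    have h1 : ∏ a ∈ range p, (x + ζ ^ a * y) = (ζ - 1) ^ p * ∏ a ∈ range p, t a := by
      rw [Finset.prod_congr rfl (fun a _ => ht a), Finset.prod_mul_distrib, Finset.prod_const,
        card_range]
    have h' := h
    rw [D.prod_formula, h1] at h'
    have h2 : p * m = p + p * (m - 1) := by
      obtain ⟨k, rfl⟩ : ∃ k, m = k + 1 := ⟨m - 1, by omega⟩
      simp only [Nat.add_sub_cancel]; ring
    rw [h2, pow_add] at h'
    apply mul_left_cancel₀ (pow_ne_zero p hlam0)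
    rw [h']; ring
  have hsplit : ∏ a ∈ range p, t a = t 0 * ∏ a ∈ (range p).erase 0, t a := by
    rw [Finset.mul_prod_erase _ _ (mem_range.2 hp.pos)]
  have hTnd : ¬ ζ - 1 ∣ ∏ a ∈ (range p).erase 0, t a := by
    apply Prime.not_dvd_finsetProd hlp
    intro a ha
    rw [mem_erase, mem_range] at ha
    exact hnt a (Nat.pos_of_ne_zero ha.1) ha.2
  -- m ≥ 2
  have hm2 : 2 ≤ m := by
    by_contra hlt
    have hm1 : m = 1 := by omega
    subst hm1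
    rw [hsplit] at hprod
    simp only [Nat.sub_self, mul_zero, pow_zero, mul_one] at hprod
    apply hz
    have h1 : ζ - 1 ∣ ↑ε * z ^ p := by rw [← hprod]; exact Dvd.dvd.mul_right hlt0 _
    exact hlp.dvd_of_dvd_pow (D.lam_not_dvd_unit_mul h1)
  -- λ^{p(m-1)} ∣ t 0
  have hpow : (ζ - 1) ^ (p * (m - 1)) ∣ t 0 := by
    apply hlp.pow_dvd_of_dvd_mul_right _ hTnd
    rw [← hsplit, hprod]
    exact Dvd.dvd.mul_right (Dvd.dvd.mul_left (dvd_refl _) _) _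
  obtain ⟨s, hs⟩ := hpow
  have hsT : s * ∏ a ∈ (range p).erase 0, t a = ε * z ^ p := by
    apply mul_left_cancel₀ (pow_ne_zero (p * (m - 1)) hlam0)
    rw [← mul_assoc, ← hs, ← hsplit, hprod]; ring
  have hsnd : ¬ ζ - 1 ∣ s := by
    intro hh
    apply hz
    have h1 : ζ - 1 ∣ ↑ε * z ^ p := by rw [← hsT]; exact Dvd.dvd.mul_right hh _
    exact hlp.dvd_of_dvd_pow (D.lam_not_dvd_unit_mul h1)
  -- the modified factors
  obtain ⟨t', ht'0, ht'a⟩ : ∃ t' : ℕ → R, t' 0 = s ∧ ∀ a, a ≠ 0 → t' a = t a :=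
    ⟨fun a => if a = 0 then s else t a, by simp, fun a ha => by simp [ha]⟩
  have ht'dvd : ∀ a, t' a ∣ t a := by
    intro a
    by_cases ha : a = 0
    · subst ha; rw [ht'0, hs]; exact Dvd.intro_left _ rfl
    · rw [ht'a a ha]
  have ht'nd : ∀ a, a < p → ¬ ζ - 1 ∣ t' a := by
    intro a hap
    by_cases ha : a = 0
    · subst ha; rwa [ht'0]
    · rw [ht'a a ha]; exact hnt a (Nat.pos_of_ne_zero ha) hap
  have hprod' : ∏ a ∈ range p, t' a = ε * z ^ p := by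
    rw [← Finset.mul_prod_erase _ _ (mem_range.2 hp.pos), ht'0, ← hsT]
    congr 1
    apply Finset.prod_congr rfl
    intro a ha
    exact ht'a a (Finset.ne_of_mem_erase ha)
  have hcop : ∀ a b, a < p → b < p → a ≠ b → IsCoprime (t' a) (t' b) := by
    intro a b ha hb hab
    apply isCoprime_of_prime_dvd
    · rintro ⟨h0, -⟩
      exact ht'nd a ha (h0 ▸ dvd_zero _)
    · intro q hq hqa hqb
      have hqa' : q ∣ x + ζ ^ a * y := by
        rw [ht a]; exact Dvd.dvd.mul_left (hqa.trans (ht'dvd a)) _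
      have hqb' : q ∣ x + ζ ^ b * y := by
        rw [ht b]; exact Dvd.dvd.mul_left (hqb.trans (ht'dvd b)) _
      have hqlam : ¬ q ∣ ζ - 1 := by
        intro hql
        exact ht'nd a ha ((hq.associated_of_dvd hlp hql).symm.dvd.trans hqa)
      have hqy : q ∣ (ζ ^ a - ζ ^ b) * y := by
        have : (ζ ^ a - ζ ^ b) * y = (x + ζ ^ a * y) - (x + ζ ^ b * y) := by ring
        rw [this]; exact dvd_sub hqa' hqb'
      have hqx : q ∣ (ζ ^ a - ζ ^ b) * x := by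
        have : (ζ ^ a - ζ ^ b) * x = ζ ^ a * (x + ζ ^ b * y) - ζ ^ b * (x + ζ ^ a * y) := by ring
        rw [this]; exact dvd_sub (Dvd.dvd.mul_left hqb' _) (Dvd.dvd.mul_left hqa' _)
      have hassoc := D.assoc_pow_sub_pow ha hb hab
      have hq1 : ∀ w, q ∣ (ζ ^ a - ζ ^ b) * w → q ∣ w := by
        intro w hw
        have : q ∣ (ζ - 1) * w := hw.trans (mul_dvd_mul_right hassoc.symm.dvd w)
        exact (hq.dvd_or_dvd this).resolve_left hqlam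
      exact hq.not_isUnit (hxy.isUnit_of_dvd' (hq1 x hqx) (hq1 y hqy))
  have hpth : ∀ a, a < p → ∃ d : R, Associated (d ^ p) (t' a) := by
    intro a ha
    have hmul : t' a * ∏ b ∈ (range p).erase a, t' b = ε * z ^ p := by
      rw [Finset.mul_prod_erase _ _ (mem_range.2 ha), hprod']
    apply exists_associated_pow_of_associated_pow_mul (c := z)
      (b := ∏ b ∈ (range p).erase a, t' b)
    · apply IsCoprime.prod_right
      intro b hb
      rw [mem_erase, mem_range] at hb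
      exact hcop a b ha hb.2 (Ne.symm hb.1)
    · rw [hmul]
      exact ⟨ε, mul_comm _ _⟩
  obtain ⟨ρ₀, u₀, h₀⟩ := hpth 0 hp.pos
  obtain ⟨ρ₁, u₁, h₁⟩ := hpth 1 (by omega)
  obtain ⟨ρ₂, u₂, h₂⟩ := hpth (p - 1) (by omega)
  rw [ht'0] at h₀
  rw [ht'a 1 one_ne_zero] at h₁
  rw [ht'a (p - 1) (by omega)] at h₂
  -- the linear relation between the factors for a = 0, 1, p - 1
  have hrel : ζ * t (p - 1) + t 1 = (1 + ζ) * t 0 := by
    apply mul_left_cancel₀ hlam0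
    have e1 := ht 1
    have e2 := ht (p - 1)
    have hz1 : ζ * ζ ^ (p - 1) = 1 := by
      rw [← pow_succ', Nat.sub_add_cancel hp.pos, D.zeta_pow_p]
    calc (ζ - 1) * (ζ * t (p - 1) + t 1)
        = ζ * ((ζ - 1) * t (p - 1)) + (ζ - 1) * t 1 := by ring
      _ = ζ * (x + ζ ^ (p - 1) * y) + (x + ζ ^ 1 * y) := by rw [← e2, ← e1]
      _ = ζ * x + (ζ * ζ ^ (p - 1)) * y + x + ζ * y := by ring
      _ = (1 + ζ) * (x + y) := by rw [hz1]; ring
      _ = (ζ - 1) * ((1 + ζ) * t 0) := by rw [ht0]; ring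
  obtain ⟨w, hw⟩ := D.isUnit_one_add_zeta
  obtain ⟨ζu, hζu⟩ := D.isUnit_zeta
  obtain ⟨η, hη⟩ : ∃ η : Rˣ, η = ζu * u₂ * u₁⁻¹ := ⟨_, rfl⟩
  obtain ⟨ε', hε'⟩ : ∃ ε' : Rˣ, ε' = w * u₀ * u₁⁻¹ := ⟨_, rfl⟩
  have hu1 : (↑u₁⁻¹ : R) * u₁ = 1 := by simp
  have hnew : ρ₁ ^ p + η * ρ₂ ^ p = ε' * (ζ - 1) ^ (p * (m - 1)) * ρ₀ ^ p := by
    have h3 := hrel
    rw [hs, ← h₀, ← h₁, ← h₂, ← hw] at h3
    rw [hη, hε']
    push_cast
    rw [hζu]
    linear_combination (↑u₁⁻¹ : R) * h3 - ρ₁ ^ p * hu1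
  -- `η` is congruent to an integer mod `p`
  have hpdvd : (p : R) ∣ ρ₁ ^ p + η * ρ₂ ^ p := by
    rw [hnew]
    apply Dvd.dvd.mul_right
    apply Dvd.dvd.mul_left
    apply D.p_dvd_lam_pow
    calc p - 1 ≤ p := Nat.sub_le _ _
      _ = p * 1 := (mul_one p).symm
      _ ≤ p * (m - 1) := Nat.mul_le_mul_left p (by omega)
  obtain ⟨n₁, hn₁⟩ := D.pow_mod_p ρ₁
  obtain ⟨n₂, hn₂⟩ := D.pow_mod_p ρ₂
  have hρ₂ : ¬ ζ - 1 ∣ ρ₂ ^ p := by
    intro hh
    apply hnt (p - 1) (by omega) (by omega)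
    rw [← h₂]; exact Dvd.dvd.mul_right hh _
  have hn₂' : ¬ (p : ℤ) ∣ n₂ := by
    intro hh
    apply hρ₂
    have := dvd_add (D.lam_dvd_p.trans hn₂) (D.lam_dvd_intCast hh)
    simpa using this
  obtain ⟨n₂', hinv⟩ := D.exists_int_inv hn₂'
  have hηint : ∃ n : ℤ, (p : R) ∣ (η : R) - n := by
    refine ⟨-(n₁ * n₂'), ?_⟩
    have hinv' : (p : R) ∣ (n₂ : R) * n₂' - 1 := by
      have := D.p_dvd_intCast hinv
      simpa using this
    have e : (η : R) - ((-(n₁ * n₂') : ℤ) : R) =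
        (ρ₁ ^ p + η * ρ₂ ^ p) * n₂' - (ρ₁ ^ p - n₁) * n₂' - η * (ρ₂ ^ p - n₂) * n₂'
          - η * ((n₂ : R) * n₂' - 1) := by
      push_cast; ring
    rw [e]
    exact dvd_sub (dvd_sub (dvd_sub (Dvd.dvd.mul_right hpdvd _) (Dvd.dvd.mul_right hn₁ _))
      (Dvd.dvd.mul_right (Dvd.dvd.mul_left hn₂ _) _)) (Dvd.dvd.mul_left hinv' _)
  obtain ⟨η₁, hη₁⟩ := D.kummer η hηint
  refine ⟨hm2, ρ₁, η₁ * ρ₂, ρ₀, ε', ?_, ?_, ?_⟩
  · have h12 : IsCoprime (t' 1) (t' (p - 1)) :=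
      hcop 1 (p - 1) (by omega) (by omega) (by omega)
    rw [ht'a 1 one_ne_zero, ht'a (p - 1) (by omega), ← h₁, ← h₂] at h12
    have h3 : IsCoprime ρ₁ ρ₂ := by
      apply (h12.of_isCoprime_of_dvd_left ?_).of_isCoprime_of_dvd_right ?_
      · exact Dvd.dvd.mul_right (dvd_pow_self _ hp0) _
      · exact Dvd.dvd.mul_right (dvd_pow_self _ hp0) _
    exact (isCoprime_mul_unit_left_right η₁.isUnit ρ₁ ρ₂).2 h3
  · intro hh
    apply hsnd
    rw [← h₀]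
    exact Dvd.dvd.mul_right (Dvd.dvd.trans hh (dvd_pow_self _ hp0)) _
  · rw [mul_pow, ← Units.val_pow_eq_pow_val, ← hη₁]; exact hnew

/-- One descent step. -/
lemma step {m : ℕ} (hm : 1 ≤ m) {x y z : R} {ε : Rˣ} (hxy : IsCoprime x y)
    (hz : ¬ ζ - 1 ∣ z) (h : x ^ p + y ^ p = ε * (ζ - 1) ^ (p * m) * z ^ p) :
    2 ≤ m ∧ ∃ (x' y' z' : R) (ε' : Rˣ), IsCoprime x' y' ∧ ¬ ζ - 1 ∣ z' ∧
      x' ^ p + y' ^ p = ε' * (ζ - 1) ^ (p * (m - 1)) * z' ^ p := by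
  have hpm : p * m ≠ 0 := Nat.mul_ne_zero D.prime_p.ne_zero (by omega)
  have hdiv : ζ - 1 ∣ x ^ p + y ^ p := by
    rw [h]
    exact Dvd.dvd.mul_right (Dvd.dvd.mul_left (dvd_pow_self _ hpm) _) _
  obtain ⟨a, -, ha⟩ := D.exists_sq_dvd hxy hdiv
  have hy' : (ζ ^ a * y) ^ p = y ^ p := by
    rw [mul_pow, ← pow_mul, mul_comm a p, pow_mul, D.zeta_pow_p, one_pow, one_mul]
  have hcop : IsCoprime x (ζ ^ a * y) :=
    (isCoprime_mul_unit_left_right (D.isUnit_zeta.pow a) x y).2 hxy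
  exact D.step_aux hm hcop hz (by rw [hy', h]) ha

/-- **Kummer's descent (case II)**: in a PID `R` with `CaseIIData R p ζ`, the equation
`x ^ p + y ^ p = ε (ζ - 1) ^ (p m) z ^ p` (`m ≥ 1`, `x, y` coprime, `ζ - 1 ∤ z`, `ε` a unit)
has no solution. -/
theorem no_solution (m : ℕ) (hm : 1 ≤ m) (x y z : R) (ε : Rˣ) (hxy : IsCoprime x y)
    (hz : ¬ (ζ - 1) ∣ z) : x ^ p + y ^ p ≠ ε * (ζ - 1) ^ (p * m) * z ^ p := by
  induction m generalizing x y z ε with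
  | zero => omega
  | succ k ih =>
    intro h
    obtain ⟨h2, x', y', z', ε', hxy', hz', h'⟩ := D.step hm hxy hz h
    exact ih (by omega) x' y' z' ε' hxy' hz' (by simpa using h')

end CaseIIData

end Fermat.Agent.FLTSmall
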