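import Mathlib

/-!
# FLTSmall / M5 (Case II descent): interface  (OWNER: helper3)

`CaseIIData R p ζ` bundles everything the Kummer descent needs about a ring `R`
(in the application `R = 𝓞 K`, `K = ℚ(ζ_p)`, which is a PID for `p = 5, 7, 11, 13`)
and a primitive `p`-th root of unity `ζ ∈ R`; `lam = ζ - 1`.

* `CaseIICore.lean`   : `CaseIIData.no_solution` (the descent, pure algebra)        -- helper3
* `CaseIIInst.lean`   : `caseIIData_of_cyclotomic` (the data for `𝓞 K`)            -- see flt_modules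
* `CaseIIInt.lean`    : `caseII_int` (integers: `p ∣ abc` and `a^p+b^p=c^p` impossible)
-/

set_option autoImplicit false
set_option linter.unusedSectionVars false

namespace Fermat.Agent.FLTSmall

open Finset

/-- Hypotheses for the case II descent in a ring `R` with a primitive `p`-th root of unity `ζ`. -/
structure CaseIIData (R : Type*) [CommRing R] (p : ℕ) (ζ : R) : Prop where
  prime_p : p.Prime
  odd : p ≠ 2
  prim : IsPrimitiveRoot ζ p
  lam_prime : Prime (ζ - 1)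
  assoc : Associated ((ζ - 1) ^ (p - 1)) (p : R)
  int_mod_lam : ∀ x : R, ∃ n : ℤ, (ζ - 1) ∣ x - n
  pow_mod_p : ∀ x : R, ∃ n : ℤ, (p : R) ∣ x ^ p - n
  int_dvd : ∀ n : ℤ, (ζ - 1) ∣ (n : R) → (p : ℤ) ∣ n
  kummer : ∀ u : Rˣ, (∃ n : ℤ, (p : R) ∣ (u : R) - n) → ∃ v : Rˣ, u = v ^ p

namespace CaseIIData

variable {R : Type*} [CommRing R] [IsDomain R] {p : ℕ} {ζ : R} (D : CaseIIData R p ζ)
include D

lemma lam_dvd_zeta_pow_sub_one (a : ℕ) : ζ - 1 ∣ ζ ^ a - 1 := by
  simpa using sub_dvd_pow_sub_pow ζ 1 a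

lemma assoc_zeta_pow_sub_one {a : ℕ} (ha : ¬ p ∣ a) : Associated (ζ - 1) (ζ ^ a - 1) := by
  have hcop : a.Coprime p := ((Nat.Prime.coprime_iff_not_dvd D.prime_p).2 ha).symm
  exact D.prim.associated_sub_one_pow_sub_one_of_coprime hcop

lemma two_le : 2 ≤ p := D.prime_p.two_le

lemma three_le : 3 ≤ p := by
  have h1 := D.prime_p.two_le
  have h2 := D.odd
  omega

lemma lam_dvd_p : ζ - 1 ∣ (p : R) := by
  have h1 : ζ - 1 ∣ (ζ - 1) ^ (p - 1) :=
    dvd_pow_self _ (by have := D.prime_p.two_le; omega)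
  exact h1.trans D.assoc.dvd

lemma p_dvd_lam_pow {k : ℕ} (hk : p - 1 ≤ k) : (p : R) ∣ (ζ - 1) ^ k :=
  D.assoc.symm.dvd.trans (pow_dvd_pow _ hk)

lemma zeta_pow_p : ζ ^ p = 1 := D.prim.pow_eq_one

lemma isUnit_zeta : IsUnit ζ := D.prim.isUnit D.prime_p.ne_zero

lemma lam_ne_zero : ζ - 1 ≠ 0 := D.lam_prime.ne_zero

lemma lam_not_isUnit : ¬ IsUnit (ζ - 1) := D.lam_prime.not_isUnit

/-- `x ^ p + y ^ p = ∏_{a < p} (x + ζ ^ a y)`. -/
lemma prod_formula (x y : R) : x ^ p + y ^ p = ∏ a ∈ range p, (x + ζ ^ a * y) := by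
  classical
  have hodd : Odd p := D.prime_p.odd_of_ne_two D.odd
  rw [D.prim.pow_add_pow_eq_prod_add_mul x y hodd]
  have himg : Polynomial.nthRootsFinset p (1 : R) = (range p).image (fun a => ζ ^ a) := by
    have : NeZero p := ⟨D.prime_p.ne_zero⟩
    ext ξ
    simp only [Polynomial.mem_nthRootsFinset D.prime_p.pos, mem_image, mem_range]
    constructor
    · intro h
      obtain ⟨i, hi, rfl⟩ := D.prim.eq_pow_of_pow_eq_one h
      exact ⟨i, hi, rfl⟩
    · rintro ⟨i, -, rfl⟩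
      rw [← pow_mul, mul_comm, pow_mul, D.zeta_pow_p, one_pow]
  rw [himg, Finset.prod_image]
  intro i hi j hj hij
  exact D.prim.pow_inj (mem_range.1 hi) (mem_range.1 hj) hij

end CaseIIData

end Fermat.Agent.FLTSmall
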