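import Mathlib
import Fermat.Agent.FLTSmall.CaseIIDefs

/-!
# FLTSmall / M5 piece (B): the Case II data for `𝓞 K`, `K = ℚ(ζ_p)`  (OWNER: helper4)

`caseIIData_of_cyclotomic`: for an odd prime `p`, a `p`-th cyclotomic field `K` and a primitive
`p`-th root of unity `ζ ∈ K`, the ring of integers `𝓞 K` with `hζ.toInteger` satisfies all the
fields of `CaseIIData`, given Kummer's lemma as a hypothesis.
-/

set_option autoImplicit false
set_option linter.unusedSectionVars false

namespace Fermat.Agent.FLTSmall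

open NumberField

section

variable {p : ℕ} [Fact p.Prime] {K : Type*} [Field K] [NumberField K]
  [IsCyclotomicExtension {p} ℚ K] {ζ : K} (hζ : IsPrimitiveRoot ζ p)

/-- Every element of `𝓞 K` lies in `ℤ[ζ]`. -/
lemma caseII_mem_adjoin_toInteger (x : 𝓞 K) :
    x ∈ Algebra.adjoin ℤ ({hζ.toInteger} : Set (𝓞 K)) := by
  have h := hζ.integralPowerBasis.adjoin_gen_eq_top
  rw [hζ.integralPowerBasis_gen] at h
  rw [h]
  exact Algebra.mem_top

/-- Every element of `𝓞 K` is congruent to a rational integer modulo `ζ - 1`. -/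
lemma caseII_int_mod_lam (x : 𝓞 K) : ∃ n : ℤ, (hζ.toInteger - 1) ∣ x - n := by
  induction caseII_mem_adjoin_toInteger hζ x using Algebra.adjoin_induction with
  | mem y hy =>
    rw [Set.mem_singleton_iff] at hy
    subst hy
    exact ⟨1, by simp⟩
  | algebraMap r =>
    exact ⟨r, by simp⟩
  | add y z _ _ hy hz =>
    obtain ⟨n, a, ha⟩ := hy
    obtain ⟨m, b, hb⟩ := hz
    refine ⟨n + m, a + b, ?_⟩
    push_cast
    linear_combination ha + hb
  | mul y z _ _ hy hz =>
    obtain ⟨n, a, ha⟩ := hy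
    obtain ⟨m, b, hb⟩ := hz
    refine ⟨n * m, a * z + n * b, ?_⟩
    push_cast
    linear_combination z * ha + (n : 𝓞 K) * hb

include hζ in
/-- The `p`-th power of every element of `𝓞 K` is congruent to a rational integer modulo `p`. -/
lemma caseII_pow_mod_p (x : 𝓞 K) : ∃ n : ℤ, (p : 𝓞 K) ∣ x ^ p - n := by
  have hp : p.Prime := Fact.out
  induction caseII_mem_adjoin_toInteger hζ x using Algebra.adjoin_induction with
  | mem y hy =>
    rw [Set.mem_singleton_iff] at hy
    subst hy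
    refine ⟨1, ?_⟩
    rw [hζ.toInteger_isPrimitiveRoot.pow_eq_one]
    simp
  | algebraMap r =>
    exact ⟨r ^ p, by simp⟩
  | add y z _ _ hy hz =>
    obtain ⟨n, a, ha⟩ := hy
    obtain ⟨m, b, hb⟩ := hz
    obtain ⟨r, hr⟩ := exists_add_pow_prime_eq hp y z
    refine ⟨n + m, a + b + y * z * r, ?_⟩
    push_cast
    rw [hr]
    linear_combination ha + hb
  | mul y z _ _ hy hz =>
    obtain ⟨n, a, ha⟩ := hy
    obtain ⟨m, b, hb⟩ := hz
    refine ⟨n * m, a * z ^ p + n * b, ?_⟩
    push_cast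
    rw [mul_pow]
    linear_combination z ^ p * ha + (n : 𝓞 K) * hb

/-- A rational integer divisible by `ζ - 1` in `𝓞 K` is divisible by `p`. -/
lemma caseII_int_dvd (hp : p ≠ 2) (n : ℤ) (h : (hζ.toInteger - 1) ∣ (n : 𝓞 K)) :
    (p : ℤ) ∣ n := by
  rwa [← Ideal.norm_dvd_iff (hζ.prime_norm_toInteger_sub_one_of_prime_ne_two' hp),
    hζ.norm_toInteger_sub_one_of_prime_ne_two' hp] at h

end

/-- The Case II data for the ring of integers of the `p`-th cyclotomic field, given Kummer's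
lemma. -/
theorem caseIIData_of_cyclotomic {p : ℕ} [Fact p.Prime] (hp : p ≠ 2) {K : Type*} [Field K]
    [NumberField K] [IsCyclotomicExtension {p} ℚ K] {ζ : K} (hζ : IsPrimitiveRoot ζ p)
    (kummer : ∀ u : (𝓞 K)ˣ, (∃ n : ℤ, (p : 𝓞 K) ∣ (u : 𝓞 K) - n) → ∃ v : (𝓞 K)ˣ, u = v ^ p) :
    CaseIIData (𝓞 K) p hζ.toInteger where
  prime_p := Fact.out
  odd := hp
  prim := hζ.toInteger_isPrimitiveRoot
  lam_prime := hζ.zeta_sub_one_prime'
  assoc := IsCyclotomicExtension.Rat.associated_zeta_sub_one_pow_prime p hζ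
  int_mod_lam := caseII_int_mod_lam hζ
  pow_mod_p := caseII_pow_mod_p hζ
  int_dvd := caseII_int_dvd hζ hp
  kummer := kummer

end Fermat.Agent.FLTSmall
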