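import Fermat.Agent.FLTSmall.CaseIIDefs

/-!
# FLTSmall / M5 (Case II), integer wrapper: generic part  (OWNER: helper6)

`caseII_int_of_data`: from `CaseIIData R p ζ` and the descent statement
(`CaseIIData.no_solution`, taken here as a hypothesis `hno` so that this file only depends on
`CaseIIDefs.lean`), deduce that a coprime integer solution of `a ^ p + b ^ p = c ^ p` with
`p ∣ a * b * c` has `a * b * c = 0`.
-/

set_option autoImplicit false

namespace Fermat.Agent.FLTSmall

/-- The descent statement for `R, p, ζ` (this is the conclusion of `CaseIIData.no_solution`). -/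
def CaseIIDescent (R : Type*) [CommRing R] (p : ℕ) (ζ : R) : Prop :=
  ∀ (m : ℕ), 1 ≤ m → ∀ (x y z : R) (eps : Rˣ), IsCoprime x y → ¬ (ζ - 1) ∣ z →
    x ^ p + y ^ p ≠ eps * (ζ - 1) ^ (p * m) * z ^ p

/-- Core integer statement: `x ^ p + y ^ p = z ^ p` with `x, y` coprime, `p ∣ z`, `z ≠ 0` is
impossible. -/
theorem caseII_int_core {p : ℕ} {R : Type*} [CommRing R] [IsDomain R] {ζ : R}
    (D : CaseIIData R p ζ) (hno : CaseIIDescent R p ζ)
    (x y z : ℤ) (hxy : IsCoprime x y) (h : x ^ p + y ^ p = z ^ p) (hz : z ≠ 0)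
    (hdvd : (p : ℤ) ∣ z) : False := by
  have hp : p.Prime := D.prime_p
  have hpZ : Prime (p : ℤ) := Nat.prime_iff_prime_int.1 hp
  -- write `z = p ^ k * z₁` with `p ∤ z₁`
  obtain ⟨k, z₁, hz₁, hzk⟩ :=
    WfDvdMonoid.max_power_factor (α := ℤ) hz hpZ.irreducible
  have hk : 1 ≤ k := by
    rcases Nat.eq_zero_or_pos k with h0 | h0
    · exfalso
      subst h0
      rw [pow_zero, one_mul] at hzk
      exact hz₁ (hzk ▸ hdvd)
    · exact h0
  -- `p = u * lam ^ (p - 1)` in `R`
  obtain ⟨u, hu⟩ := D.assoc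
  -- hu : (ζ - 1) ^ (p - 1) * u = p
  have hlam : ¬ (ζ - 1) ∣ ((z₁ : ℤ) : R) := fun hd => hz₁ (D.int_dvd z₁ hd)
  have hcop : IsCoprime ((x : ℤ) : R) ((y : ℤ) : R) := hxy.intCast
  have hR : ((x : ℤ) : R) ^ p + ((y : ℤ) : R) ^ p = ((z : ℤ) : R) ^ p := by
    exact_mod_cast congrArg (Int.cast : ℤ → R) h
  refine hno ((p - 1) * k) (Nat.mul_pos (by have := hp.two_le; omega) hk)
    (x : R) (y : R) (z₁ : R) (u ^ (k * p)) hcop hlam ?_
  rw [hR, hzk]
  push_cast
  rw [← hu]
  ring

/-- Case II for integers, from the `CaseIIData` and the descent. -/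
theorem caseII_int_of_data {p : ℕ} {R : Type*} [CommRing R] [IsDomain R] {ζ : R}
    (D : CaseIIData R p ζ) (hno : CaseIIDescent R p ζ)
    (a b c : ℤ) (hab : IsCoprime a b) (h : a ^ p + b ^ p = c ^ p)
    (hdvd : (p : ℤ) ∣ a * b * c) : a * b * c = 0 := by
  by_contra habc
  have ha : a ≠ 0 := fun h0 => habc (by rw [h0]; ring)
  have hb : b ≠ 0 := fun h0 => habc (by rw [h0]; ring)
  have hc : c ≠ 0 := fun h0 => habc (by rw [h0]; ring)
  have hp : p.Prime := D.prime_p
  have hpZ : Prime (p : ℤ) := Nat.prime_iff_prime_int.1 hp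
  have hodd : Odd p := hp.odd_of_ne_two D.odd
  have hp0 : 0 < p := hp.pos
  -- coprimality of `c` with `a` and `b`
  have hcb : IsCoprime c b := by
    have h1 : IsCoprime (a ^ p) b := hab.pow_left
    have h2 : IsCoprime (c ^ p) b := by
      rw [← h]
      have : b ^ p = b * b ^ (p - 1) := by
        rw [← pow_succ', Nat.sub_add_cancel hp0]
      rw [this]
      exact h1.add_mul_left_left _
    exact (IsCoprime.pow_left_iff hp0).1 h2
  have hca : IsCoprime c a := by
    have h1 : IsCoprime (b ^ p) a := hab.symm.pow_left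
    have h2 : IsCoprime (c ^ p) a := by
      rw [← h, add_comm]
      have : a ^ p = a * a ^ (p - 1) := by
        rw [← pow_succ', Nat.sub_add_cancel hp0]
      rw [this]
      exact h1.add_mul_left_left _
    exact (IsCoprime.pow_left_iff hp0).1 h2
  rcases hpZ.dvd_mul.1 hdvd with hab' | hc'
  · rcases hpZ.dvd_mul.1 hab' with ha' | hb'
    · -- `p ∣ a`: `c ^ p + (-b) ^ p = a ^ p`
      refine caseII_int_core D hno c (-b) a hcb.neg_right ?_ ha ha'
      rw [hodd.neg_pow, ← h]; ring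
    · -- `p ∣ b`: `c ^ p + (-a) ^ p = b ^ p`
      refine caseII_int_core D hno c (-a) b hca.neg_right ?_ hb hb'
      rw [hodd.neg_pow, ← h]; ring
  · exact caseII_int_core D hno a b c hab h hc hc'

end Fermat.Agent.FLTSmall
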