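import Fermat.Agent.FLTSmall.CaseIICore
import Fermat.Agent.FLTSmall.CaseIIInst
import Fermat.Agent.FLTSmall.CaseIIIntAux

/-!
# FLTSmall / M5 (Case II), integer statement  (OWNER: helper6)

`caseII_int`: for an odd prime `p` such that `𝓞 ℚ(ζ_p)` is a PID and Kummer's lemma holds,
a coprime integer solution of `a ^ p + b ^ p = c ^ p` with `p ∣ a * b * c` has `a * b * c = 0`.
-/

set_option autoImplicit false

namespace Fermat.Agent.FLTSmall

open NumberField

theorem caseII_int {p : ℕ} [Fact p.Prime] (hp : p ≠ 2) {K : Type*} [Field K] [NumberField K]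
    [IsCyclotomicExtension {p} ℚ K] [IsPrincipalIdealRing (𝓞 K)]
    (kummer : ∀ u : (𝓞 K)ˣ, (∃ n : ℤ, (p : 𝓞 K) ∣ (u : 𝓞 K) - n) → ∃ v : (𝓞 K)ˣ, u = v ^ p)
    (a b c : ℤ) (hab : IsCoprime a b) (h : a ^ p + b ^ p = c ^ p)
    (hdvd : (p : ℤ) ∣ a * b * c) : a * b * c = 0 := by
  have hζ : IsPrimitiveRoot (IsCyclotomicExtension.zeta p ℚ K) p :=
    IsCyclotomicExtension.zeta_spec p ℚ K
  have D : CaseIIData (𝓞 K) p hζ.toInteger := caseIIData_of_cyclotomic hp hζ kummer
  exact caseII_int_of_data D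
    (fun m hm x y z eps hxy hz => D.no_solution m hm x y z eps hxy hz) a b c hab h hdvd

end Fermat.Agent.FLTSmall
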