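import Mathlib

/-!
# FLTSmall / Kummer's lemma: the abstract linear-algebra criterion  (OWNER: helper2)

Let `E` be a commutative group generated by the family `s : ι → E`, let `Φ : E → V` be a
homomorphism to an `𝔽_p`-vector space and let `g : κ → E` be a family with `#ι ≤ #κ` whose images
under `Φ` are linearly independent.  Then `ker Φ = E ^ p`.
-/

set_option autoImplicit false

namespace Fermat.Agent.FLTSmall

open Module

/-- Every element of a commutative group generated by a finite family is a product of integer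
powers of the generators. -/
theorem exists_zpow_prod_of_closure_eq_top {E ι : Type*} [CommGroup E] [Fintype ι] [DecidableEq ι]
    (s : ι → E) (hs : Subgroup.closure (Set.range s) = ⊤) (x : E) :
    ∃ c : ι → ℤ, x = ∏ j, s j ^ c j := by
  have hx : x ∈ Subgroup.closure (Set.range s) := hs ▸ Subgroup.mem_top x
  induction hx using Subgroup.closure_induction with
  | mem y hy =>
    obtain ⟨j, rfl⟩ := hy
    refine ⟨Pi.single j 1, ?_⟩
    rw [Finset.prod_eq_single j]
    · simp
    · intro k _ hk
      simp [Pi.single_eq_of_ne hk]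
    · intro h
      exact absurd (Finset.mem_univ j) h
  | one => exact ⟨0, by simp⟩
  | mul a b _ _ ha hb =>
    obtain ⟨c, rfl⟩ := ha
    obtain ⟨d, rfl⟩ := hb
    exact ⟨c + d, by simp [zpow_add, Finset.prod_mul_distrib]⟩
  | inv a _ ha =>
    obtain ⟨c, rfl⟩ := ha
    exact ⟨-c, by simp⟩

/-- The abstract criterion behind Kummer's lemma. -/
theorem exists_pow_eq_of_map_eq_zero {E ι κ V : Type*} [CommGroup E] [Fintype ι] [DecidableEq ι]
    [Fintype κ] {p : ℕ} [Fact p.Prime] [AddCommGroup V] [Module (ZMod p) V]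
    (Φ : Additive E →+ V)
    (s : ι → E) (hs : Subgroup.closure (Set.range s) = ⊤)
    (g : κ → E) (hg : LinearIndependent (ZMod p) (fun i => Φ (Additive.ofMul (g i))))
    (hcard : Fintype.card ι ≤ Fintype.card κ)
    (u : E) (hu : Φ (Additive.ofMul u) = 0) : ∃ v : E, u = v ^ p := by
  classical
  -- the linear map `F c = ∑ c j • Φ (s j)`
  set F : (ι → ZMod p) →ₗ[ZMod p] V :=
    Fintype.linearCombination (ZMod p) (fun j => Φ (Additive.ofMul (s j))) with hF
  have hΦ : ∀ c : ι → ℤ, Φ (Additive.ofMul (∏ j, s j ^ c j)) = F (fun j => (c j : ZMod p)) := by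
    intro c
    rw [hF, Fintype.linearCombination_apply, ofMul_prod, map_sum]
    refine Finset.sum_congr rfl fun j _ => ?_
    rw [ofMul_zpow, map_zsmul, Int.cast_smul_eq_zsmul]
  -- the `Φ (g i)` lie in the range of `F`
  have hgF : ∀ i, Φ (Additive.ofMul (g i)) ∈ LinearMap.range F := by
    intro i
    obtain ⟨c, hc⟩ := exists_zpow_prod_of_closure_eq_top s hs (g i)
    exact ⟨_, (hΦ c).symm.trans (by rw [← hc])⟩
  -- hence `F` is injective
  have hli : LinearIndependent (ZMod p)
      (fun i => (⟨Φ (Additive.ofMul (g i)), hgF i⟩ : LinearMap.range F)) := by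
    refine LinearIndependent.of_comp (LinearMap.range F).subtype ?_
    exact hg
  have h1 : Fintype.card κ ≤ finrank (ZMod p) (LinearMap.range F) :=
    hli.fintype_card_le_finrank
  have h2 : finrank (ZMod p) (LinearMap.range F) + finrank (ZMod p) (LinearMap.ker F) =
      Fintype.card ι := by
    rw [LinearMap.finrank_range_add_finrank_ker, Module.finrank_fintype_fun_eq_card]
  have h3 : finrank (ZMod p) (LinearMap.ker F) = 0 := by omega
  have hker : LinearMap.ker F = ⊥ := Submodule.finrank_eq_zero.mp h3
  -- conclude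
  obtain ⟨c, hc⟩ := exists_zpow_prod_of_closure_eq_top s hs u
  have hc0 : (fun j => (c j : ZMod p)) = 0 := by
    have : (fun j => (c j : ZMod p)) ∈ LinearMap.ker F := by
      rw [LinearMap.mem_ker, ← hΦ c, ← hc, hu]
    rw [hker] at this
    exact (Submodule.mem_bot _).mp this
  have hdiv : ∀ j, (p : ℤ) ∣ c j := fun j =>
    (ZMod.intCast_zmod_eq_zero_iff_dvd (c j) p).mp (congrFun hc0 j)
  choose d hd using hdiv
  refine ⟨∏ j, s j ^ d j, ?_⟩
  rw [hc, ← Finset.prod_pow]
  refine Finset.prod_congr rfl fun j _ => ?_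
  rw [hd j, mul_comm, zpow_mul, zpow_natCast]

end Fermat.Agent.FLTSmall
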