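import Mathlib
import Fermat.Agent.FLTSmall.KummerAbstract

/-!
# FLTSmall / Kummer's lemma: the logarithmic derivative modulo `p`  (OWNER: helper2)

Let `K = ℚ(ζ_p)`, `V = 𝔽_p[X]/(X^(p-2))`.  There is a ring homomorphism
`Ψ : 𝓞 K → V[ε]` (dual numbers) with `Ψ ζ = (1 + x) + ε`, and hence a group homomorphism
`dlog : (𝓞 K)ˣ → (V, +)`, `u ↦ snd (Ψ u) / fst (Ψ u)`, which kills every unit congruent to a
rational integer modulo `p`.  By Dirichlet's unit theorem `(𝓞 K)ˣ` is generated by `(p-1)/2`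
elements; so if the `dlog`s of the `(p-1)/2` cyclotomic units `ζ, 1 + ζ, 1 + ζ + ζ², …` are linearly
independent over `𝔽_p` (a finite computation, true exactly for regular primes), then
`ker dlog = ((𝓞 K)ˣ)^p`: this is Kummer's lemma.
-/

set_option autoImplicit false

open Polynomial NumberField

noncomputable section

namespace Fermat.Agent.FLTSmall

/-- `L` is a right inverse of the matrix `w` modulo `p` (stated without any primality
assumption, so that it can be checked by `decide`). -/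
def IsRightInvCert (p N n : ℕ) (w : Fin n → Fin N → ℕ) (L : Fin N → Fin n → ZMod p) : Prop :=
  ∀ i k, ∑ j, (w i j : ZMod p) * L j k = if i = k then 1 else 0

variable (p : ℕ) [Fact p.Prime]

/-- `V = 𝔽_p[X]/(X^(p-2))`. -/
abbrev KV : Type := AdjoinRoot ((X : (ZMod p)[X]) ^ (p - 2))

/-- The class of `X` in `V`. -/
def kx : KV p := AdjoinRoot.root _

theorem kx_pow : kx p ^ (p - 2) = 0 := by
  have := AdjoinRoot.eval₂_root ((X : (ZMod p)[X]) ^ (p - 2))
  simpa [kx] using this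

theorem KV_natCast_self : (p : KV p) = 0 := by
  rw [← map_natCast (algebraMap (ZMod p) (KV p)), ZMod.natCast_self, map_zero]

abbrev KT : Type := TrivSqZeroExt (KV p) (KV p)

example : CommRing (KT p) := inferInstance
example : Algebra (ZMod p) (KT p) := inferInstance
example : Algebra ℤ (KT p) := inferInstance

def ky : KT p := TrivSqZeroExt.inl (1 + kx p) + TrivSqZeroExt.inr 1

theorem sum_one_add_X_pow :
    ∑ i ∈ Finset.range p, (1 + X : (ZMod p)[X]) ^ i = X ^ (p - 1) := by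
  have hp := (Fact.out : p.Prime)
  have h1 : (X : (ZMod p)[X]) * ∑ i ∈ Finset.range p, (1 + X : (ZMod p)[X]) ^ i =
      X * X ^ (p - 1) := by
    have := mul_geom_sum (1 + X : (ZMod p)[X]) p
    rw [add_sub_cancel_left] at this
    rw [this, add_pow_char, one_pow, add_sub_cancel_left, ← pow_succ']
    congr 1
    have := hp.one_lt
    omega
  exact mul_left_cancel₀ X_ne_zero h1

theorem ky_sub_one_pow (hp : 3 ≤ p) : (ky p - 1) ^ (p - 1) = 0 := by
  have h1 : ky p - 1 = TrivSqZeroExt.inl (kx p) + TrivSqZeroExt.inr 1 := by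
    ext <;> simp [ky]
  rw [h1]
  ext
  · simp only [TrivSqZeroExt.fst_pow, TrivSqZeroExt.fst_add, TrivSqZeroExt.fst_inl,
      TrivSqZeroExt.fst_inr, add_zero, TrivSqZeroExt.fst_zero]
    have : p - 1 = (p - 2) + 1 := by omega
    rw [this, pow_succ, kx_pow, zero_mul]
  · rw [TrivSqZeroExt.snd_pow]
    simp only [TrivSqZeroExt.fst_add, TrivSqZeroExt.fst_inl, TrivSqZeroExt.fst_inr, add_zero,
      TrivSqZeroExt.snd_zero]
    have : (p - 1).pred = p - 2 := by simp [Nat.pred_eq_sub_one]; omega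
    rw [this, kx_pow]
    simp

theorem sum_ky_pow (hp : 3 ≤ p) : ∑ i ∈ Finset.range p, ky p ^ i = 0 := by
  have h := congrArg (aeval (R := ZMod p) (ky p - 1)) (sum_one_add_X_pow p)
  simpa [map_sum, ky_sub_one_pow p hp] using h

variable {p}
variable {K : Type*} [Field K] [NumberField K] [IsCyclotomicExtension {p} ℚ K]
variable {ζ : K} (hζ : IsPrimitiveRoot ζ p)

omit [IsCyclotomicExtension {p} ℚ K] in
theorem minpoly_toInteger : minpoly ℤ hζ.toInteger = cyclotomic p ℤ := by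
  have hp := (Fact.out : p.Prime)
  rw [cyclotomic_eq_minpoly hζ hp.pos, ← NumberField.RingOfIntegers.minpoly_coe]
  rfl

theorem aeval_ky_minpoly (hp : 3 ≤ p) :
    aeval (ky p) (minpoly ℤ hζ.integralPowerBasis.gen) = 0 := by
  rw [IsPrimitiveRoot.integralPowerBasis_gen, minpoly_toInteger, cyclotomic_prime]
  simpa [map_sum] using sum_ky_pow p hp

/-- The ring homomorphism `𝓞 K → V[ε]`, `ζ ↦ (1 + x) + ε`. -/
def kPsi (hp : 3 ≤ p) : 𝓞 K →ₐ[ℤ] KT p :=
  hζ.integralPowerBasis.lift (ky p) (aeval_ky_minpoly hζ hp)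

theorem kPsi_zeta (hp : 3 ≤ p) : kPsi hζ hp hζ.toInteger = ky p := by
  have := hζ.integralPowerBasis.lift_gen (ky p) (aeval_ky_minpoly hζ hp)
  rwa [IsPrimitiveRoot.integralPowerBasis_gen] at this

theorem kPsi_fst_mul_fst_inv (hp : 3 ≤ p) (u : (𝓞 K)ˣ) :
    (kPsi hζ hp (u : 𝓞 K)).fst * (kPsi hζ hp ((u⁻¹ : (𝓞 K)ˣ) : 𝓞 K)).fst = 1 := by
  rw [← TrivSqZeroExt.fst_mul, ← map_mul, ← Units.val_mul, mul_inv_cancel, Units.val_one, map_one,
    TrivSqZeroExt.fst_one]

/-- The logarithmic derivative `(𝓞 K)ˣ → V`. -/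
def kdlog (hp : 3 ≤ p) : Additive (𝓞 K)ˣ →+ KV p where
  toFun u := (kPsi hζ hp ((Additive.toMul u : (𝓞 K)ˣ) : 𝓞 K)).snd *
    (kPsi hζ hp (((Additive.toMul u)⁻¹ : (𝓞 K)ˣ) : 𝓞 K)).fst
  map_zero' := by simp
  map_add' u v := by
    have hu := kPsi_fst_mul_fst_inv hζ hp (Additive.toMul u)
    have hv := kPsi_fst_mul_fst_inv hζ hp (Additive.toMul v)
    simp only [toMul_add, Units.val_mul, map_mul, mul_inv, TrivSqZeroExt.snd_mul,
      TrivSqZeroExt.fst_mul, smul_eq_mul, MulOpposite.smul_eq_mul_unop, MulOpposite.unop_op]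
    linear_combination
      ((kPsi hζ hp ((Additive.toMul v : (𝓞 K)ˣ) : 𝓞 K)).snd *
        (kPsi hζ hp (((Additive.toMul v)⁻¹ : (𝓞 K)ˣ) : 𝓞 K)).fst) * hu +
      ((kPsi hζ hp ((Additive.toMul u : (𝓞 K)ˣ) : 𝓞 K)).snd *
        (kPsi hζ hp (((Additive.toMul u)⁻¹ : (𝓞 K)ˣ) : 𝓞 K)).fst) * hv

theorem kdlog_apply (hp : 3 ≤ p) (u : (𝓞 K)ˣ) :
    kdlog hζ hp (Additive.ofMul u) =
      (kPsi hζ hp (u : 𝓞 K)).snd * (kPsi hζ hp ((u⁻¹ : (𝓞 K)ˣ) : 𝓞 K)).fst := rfl

theorem kdlog_eq_of_cert (hp : 3 ≤ p) (u : (𝓞 K)ˣ) (W : KV p)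
    (h : W * (kPsi hζ hp (u : 𝓞 K)).fst = (kPsi hζ hp (u : 𝓞 K)).snd) :
    kdlog hζ hp (Additive.ofMul u) = W := by
  rw [kdlog_apply, ← h, mul_assoc, kPsi_fst_mul_fst_inv, mul_one]

theorem KT_natCast_self : (p : KT p) = 0 := by
  rw [← map_natCast (algebraMap (ZMod p) (KT p)), ZMod.natCast_self, map_zero]

theorem kdlog_eq_zero_of_dvd (hp : 3 ≤ p) (u : (𝓞 K)ˣ) (a : ℤ)
    (h : (p : 𝓞 K) ∣ (u : 𝓞 K) - a) : kdlog hζ hp (Additive.ofMul u) = 0 := by
  obtain ⟨t, ht⟩ := h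
  have hu : (u : 𝓞 K) = a + p * t := by rw [← ht]; ring
  have h1 : kPsi hζ hp (u : 𝓞 K) = (a : KT p) := by
    rw [hu, map_add, map_mul, map_intCast, map_natCast, KT_natCast_self, zero_mul, add_zero]
  rw [kdlog_apply, h1]
  simp

omit [IsCyclotomicExtension {p} ℚ K] [Fact p.Prime] in
theorem exists_unit_generators (K : Type*) [Field K] [NumberField K] :
    ∃ s : Option (Fin (Units.rank K)) → (𝓞 K)ˣ, Subgroup.closure (Set.range s) = ⊤ := by
  obtain ⟨t, ht⟩ := IsCyclic.exists_generator (α := Units.torsion K)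
  refine ⟨fun o => o.elim (t : (𝓞 K)ˣ) (Units.fundSystem K), ?_⟩
  rw [eq_top_iff, ← Units.closure_fundSystem_sup_torsion_eq_top]
  apply sup_le
  · apply Subgroup.closure_mono
    rintro _ ⟨i, rfl⟩
    exact ⟨some i, rfl⟩
  · intro x hx
    have hmem : (⟨x, hx⟩ : Units.torsion K) ∈ Subgroup.zpowers t := ht _
    obtain ⟨k, hk⟩ := Subgroup.mem_zpowers_iff.mp hmem
    have hx' : x = (t : (𝓞 K)ˣ) ^ k := by
      have := congrArg (Subtype.val) hk
      simpa using this.symm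
    rw [hx']
    exact Subgroup.zpow_mem _ (Subgroup.subset_closure (Set.mem_range.mpr ⟨none, rfl⟩)) k

theorem rank_add_one (hp : 3 ≤ p) : Units.rank K + 1 = (p - 1) / 2 := by
  have hpp := (Fact.out : p.Prime)
  have h1 := InfinitePlace.card_eq_nrRealPlaces_add_nrComplexPlaces (K := K)
  have h2 := IsCyclotomicExtension.Rat.nrRealPlaces_eq_zero K (n := p) (by omega)
  have h3 := IsCyclotomicExtension.Rat.nrComplexPlaces_eq_totient_div_two p K
  rw [Nat.totient_prime hpp] at h3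
  unfold Units.rank
  rw [h1, h2, h3]
  have : 1 ≤ (p - 1) / 2 := by omega
  omega

theorem kPsi_geom_sum_fst (hp : 3 ≤ p) (m : ℕ) :
    (kPsi hζ hp (∑ i ∈ Finset.range m, hζ.toInteger ^ i)).fst =
      ∑ i ∈ Finset.range m, (1 + kx p) ^ i := by
  simp [map_sum, map_pow, kPsi_zeta, ky, TrivSqZeroExt.fst_sum]

theorem kPsi_geom_sum_snd (hp : 3 ≤ p) (m : ℕ) :
    (kPsi hζ hp (∑ i ∈ Finset.range m, hζ.toInteger ^ i)).snd =
      ∑ i ∈ Finset.range m, (i : KV p) * (1 + kx p) ^ (i - 1) := by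
  simp [map_sum, map_pow, kPsi_zeta, ky, TrivSqZeroExt.snd_sum, TrivSqZeroExt.snd_pow]

/-- **Kummer's lemma from a certificate.** -/
theorem kummer_of_cert (hp : 3 ≤ p) (n : ℕ) (hn : 2 * n + 1 = p)
    (W : Fin n → KV p)
    (hW0 : ∀ j : Fin n, (j : ℕ) = 0 → W j * (1 + kx p) = 1)
    (hW : ∀ j : Fin n, (j : ℕ) ≠ 0 →
      W j * (∑ i ∈ Finset.range ((j : ℕ) + 1), (1 + kx p) ^ i) =
        ∑ i ∈ Finset.range ((j : ℕ) + 1), (i : KV p) * (1 + kx p) ^ (i - 1))
    (hli : LinearIndependent (ZMod p) W)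
    (u : (𝓞 K)ˣ) (a : ℤ) (h : (p : 𝓞 K) ∣ (u : 𝓞 K) - a) : ∃ v : (𝓞 K)ˣ, u = v ^ p := by
  classical
  have hpp := (Fact.out : p.Prime)
  have hζ := IsCyclotomicExtension.zeta_spec p ℚ K
  have hζ' : IsPrimitiveRoot hζ.toInteger p := hζ.toInteger_isPrimitiveRoot
  obtain ⟨s, hs⟩ := exists_unit_generators K
  -- the cyclotomic units
  have hunit : ∀ j : Fin n, IsUnit (∑ i ∈ Finset.range ((j : ℕ) + 1), hζ.toInteger ^ i) := by
    intro j
    refine hζ'.geom_sum_isUnit hpp.two_le ?_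
    exact (Nat.coprime_of_lt_prime (by omega) (by omega) hpp).symm
  have hζu : IsUnit hζ.toInteger := hζ'.isUnit hpp.ne_zero
  let g : Fin n → (𝓞 K)ˣ := fun j => if (j : ℕ) = 0 then hζu.unit else (hunit j).unit
  refine exists_pow_eq_of_map_eq_zero (kdlog hζ hp) s hs g ?_ ?_ u
    (kdlog_eq_zero_of_dvd hζ hp u a h)
  · -- linear independence
    have : (fun j => kdlog hζ hp (Additive.ofMul (g j))) = W := by
      funext j
      apply kdlog_eq_of_cert
      by_cases hj : (j : ℕ) = 0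
      · simp only [g, hj, if_true, IsUnit.unit_spec]
        rw [kPsi_zeta]
        simp [ky, hW0 j hj]
      · simp only [g, hj, if_false, IsUnit.unit_spec]
        rw [kPsi_geom_sum_fst, kPsi_geom_sum_snd]
        exact hW j hj
    rw [this]
    exact hli
  · -- cardinalities
    rw [Fintype.card_option, Fintype.card_fin, Fintype.card_fin, rank_add_one hp]
    omega

omit [IsCyclotomicExtension {p} ℚ K] in
/-- Linear independence in `V` from an explicit left-inverse certificate. -/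
theorem linearIndependent_of_matrix_cert (p : ℕ) [Fact p.Prime] (N n : ℕ) (hN : N = p - 2)
    (w : Fin n → Fin N → ℕ) (L : Fin N → Fin n → ZMod p)
    (hwL : IsRightInvCert p N n w L) :
    LinearIndependent (ZMod p)
      (fun i : Fin n => ∑ j : Fin N, (w i j : KV p) * kx p ^ (j : ℕ)) := by
  classical
  rw [Fintype.linearIndependent_iff]
  intro c hc k
  set P : (ZMod p)[X] := ∑ i, C (c i) * ∑ j : Fin N, C (w i j : ZMod p) * X ^ (j : ℕ) with hP
  have hmk : AdjoinRoot.mk ((X : (ZMod p)[X]) ^ (p - 2)) P = 0 := by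
    rw [← hc, hP, map_sum]
    refine Finset.sum_congr rfl fun i _ => ?_
    rw [map_mul, map_sum, AdjoinRoot.mk_C, Algebra.smul_def, AdjoinRoot.algebraMap_eq]
    congr 1
  rw [AdjoinRoot.mk_eq_zero, Polynomial.X_pow_dvd_iff] at hmk
  have hcoeff : ∀ j : Fin N, ∑ i, c i * (w i j : ZMod p) = 0 := by
    intro j
    have := hmk (j : ℕ) (by have := j.2; omega)
    rw [hP] at this
    simp only [finsetSum_coeff, coeff_C_mul, Finset.mul_sum] at this
    rw [← this]
    refine Finset.sum_congr rfl fun i _ => ?_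
    rw [Finset.sum_eq_single j]
    · simp
    · intro j' _ hj'
      have : (j : ℕ) ≠ (j' : ℕ) := fun h => hj' (Fin.ext h.symm)
      simp [coeff_X_pow, this]
    · intro h
      exact absurd (Finset.mem_univ j) h
  calc c k = ∑ i, c i * (if i = k then 1 else 0) := by simp
    _ = ∑ i, c i * ∑ j, (w i j : ZMod p) * L j k := by
        refine Finset.sum_congr rfl fun i _ => ?_
        rw [← hwL i k]
    _ = ∑ j, (∑ i, c i * (w i j : ZMod p)) * L j k := by
        simp_rw [Finset.mul_sum, Finset.sum_mul]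
        rw [Finset.sum_comm]
        refine Finset.sum_congr rfl fun j _ => Finset.sum_congr rfl fun i _ => by ring
    _ = 0 := by simp [hcoeff]

end Fermat.Agent.FLTSmall
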