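import Mathlib
import Fermat.Agent.FLTSmall.KummerDlog

/-!
# FLTSmall / Kummer's lemma for `p = 11`: the explicit certificate  (OWNER: helper2)

Machine-generated: the rows of `kw` are the coefficients of `dlog` of the cyclotomic units
`ζ, 1 + ζ, 1 + ζ + ζ², …` in `𝔽_p[X]/(X^(p-2))`, `kL` is a right inverse of that matrix mod `p`.
-/

set_option autoImplicit false

open Polynomial NumberField

namespace Fermat.Agent.FLTSmall

/-- Coefficients of the logarithmic derivatives of the cyclotomic units, `p = 11`. -/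
def kw11 : Fin 5 → Fin 9 → ℕ := ![![1, 10, 1, 10, 1, 10, 1, 10, 1], ![6, 8, 7, 2, 10, 6, 8, 7, 2], ![1, 7, 0, 5, 6, 7, 2, 3, 0], ![7, 8, 1, 8, 7, 6, 4, 0, 0], ![2, 0, 10, 3, 0, 6, 5, 6, 5]]

/-- A right inverse of `kw11` modulo `11`. -/
def kL11 : Fin 9 → Fin 5 → ZMod 11 := ![![9, 6, 7, 0, 2], ![1, 8, 7, 4, 2], ![0, 0, 0, 0, 0], ![9, 0, 1, 3, 1], ![0, 0, 0, 0, 0], ![0, 8, 5, 0, 1], ![0, 0, 0, 0, 0], ![9, 1, 5, 4, 9], ![0, 0, 0, 0, 0]]

theorem kcert11 : IsRightInvCert 11 9 5 kw11 kL11 := by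
  unfold IsRightInvCert
  decide

/-- **Kummer's lemma for `p = 11`.** -/
theorem kummer_eleven [Fact (Nat.Prime 11)] {K : Type*} [Field K] [NumberField K]
    [IsCyclotomicExtension {11} ℚ K] (u : (𝓞 K)ˣ) (a : ℤ)
    (h : ((11 : ℕ) : 𝓞 K) ∣ (u : 𝓞 K) - a) : ∃ v : (𝓞 K)ˣ, u = v ^ 11 := by
  have hx : kx 11 ^ 9 = 0 := kx_pow 11
  have hp : (11 : KV 11) = 0 := by exact_mod_cast KV_natCast_self 11
  refine kummer_of_cert (p := 11) (by norm_num) 5 (by norm_num)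
    (fun i => ∑ j : Fin 9, (kw11 i j : KV 11) * kx 11 ^ (j : ℕ)) ?_ ?_
    (linearIndependent_of_matrix_cert 11 9 5 (by norm_num) kw11 kL11 kcert11) u a h
  · intro j hj
    fin_cases j
    · simp [kw11, Fin.sum_univ_succ]
      linear_combination ((1)) * hx + ((1) * kx 11 + (1) * kx 11 ^ 2 + (1) * kx 11 ^ 3 + (1) * kx 11 ^ 4 + (1) * kx 11 ^ 5 + (1) * kx 11 ^ 6 + (1) * kx 11 ^ 7 + (1) * kx 11 ^ 8) * hp
    · simp at hj
    · simp at hj
    · simp at hj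
    · simp at hj
  · intro j hj
    fin_cases j
    · simp at hj
    · simp [kw11, Fin.sum_univ_succ, Finset.sum_range_succ]
      linear_combination ((2)) * hx + ((1) + (2) * kx 11 + (2) * kx 11 ^ 2 + (1) * kx 11 ^ 3 + (2) * kx 11 ^ 4 + (2) * kx 11 ^ 5 + (2) * kx 11 ^ 6 + (2) * kx 11 ^ 7 + (1) * kx 11 ^ 8) * hp
    · simp [kw11, Fin.sum_univ_succ, Finset.sum_range_succ]
      linear_combination ((3)) * hx + ((2) * kx 11 + (2) * kx 11 ^ 2 + (2) * kx 11 ^ 3 + (3) * kx 11 ^ 4 + (4) * kx 11 ^ 5 + (3) * kx 11 ^ 6 + (2) * kx 11 ^ 7 + (1) * kx 11 ^ 8) * hp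
    · simp [kw11, Fin.sum_univ_succ, Finset.sum_range_succ]
      linear_combination ((4)) * hx + ((2) + (6) * kx 11 + (7) * kx 11 ^ 2 + (7) * kx 11 ^ 3 + (8) * kx 11 ^ 4 + (9) * kx 11 ^ 5 + (8) * kx 11 ^ 6 + (5) * kx 11 ^ 7 + (2) * kx 11 ^ 8) * hp
    · simp [kw11, Fin.sum_univ_succ, Finset.sum_range_succ]
      linear_combination ((141) + (85) * kx 11 + (31) * kx 11 ^ 2 + (5) * kx 11 ^ 3) * hx + ((5) * kx 11 ^ 2 + (11) * kx 11 ^ 3 + (12) * kx 11 ^ 4 + (10) * kx 11 ^ 5 + (10) * kx 11 ^ 6 + (13) * kx 11 ^ 7 + (15) * kx 11 ^ 8) * hp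

end Fermat.Agent.FLTSmall
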