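import Fermat.Agent.FLTSmall.PIDBasic

/-!
# `ℤ[ζ₁₁]` is a principal ideal domain
-/

namespace Fermat.Agent.FLTSmall

open NumberField Polynomial InfinitePlace Nat Real Ideal IsCyclotomicExtension.Rat cyclotomic
open NumberField.Ideal RingOfIntegers
open scoped NumberField

universe u

theorem minkBound_eleven (K : Type u) [Field K] [NumberField K]
    [IsCyclotomicExtension {11} ℚ K] : ⌊minkBound K⌋₊ ≤ 58 := by
  have : Fact (Nat.Prime 11) := ⟨by norm_num⟩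
  have h1 : discr K = -11 ^ 9 := by
    rw [discr_prime 11 K]
    norm_num
  have h2 : Module.finrank ℚ K = 10 := by
    rw [IsCyclotomicExtension.finrank (n := 11) K (irreducible_rat (by simp)),
      totient_prime (by norm_num)]
  have h3 : nrComplexPlaces K = 5 := by
    rw [nrComplexPlaces_eq_totient_div_two 11, totient_prime (by norm_num)]
  have hlt : minkBound K < 59 := by
    rw [minkBound, h1, h2, h3]
    have hpi : (3.1415 : ℝ) < π := Real.pi_gt_d4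
    have hs : √|((-11 ^ 9 : ℤ) : ℝ)| < 48559 := by
      rw [Real.sqrt_lt' (by norm_num)]
      norm_num
    have h4 : (4 / π) ^ 5 < (4 / 3.1415 : ℝ) ^ 5 := by
      gcongr
    have hfact : ((10 : ℕ)! : ℝ) = 3628800 := by
      norm_num [Nat.factorial]
    rw [hfact]
    calc (4 / π) ^ 5 * ((3628800 : ℝ) / ((10 : ℕ) : ℝ) ^ 10 * √|((-11 ^ 9 : ℤ) : ℝ)|)
        ≤ (4 / 3.1415 : ℝ) ^ 5 * ((3628800 : ℝ) / ((10 : ℕ) : ℝ) ^ 10 * 48559) := by
          gcongr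
      _ < 59 := by norm_num
  exact Nat.le_of_lt_succ ((Nat.floor_lt (by positivity)).mpr (by exact_mod_cast hlt))

set_option maxRecDepth 100000 in
theorem check_eleven : ∀ q < 59, ∀ j < 6, (q.Prime ∧ q ≠ 11 ∧ q ≠ 23 ∧ 1 ≤ j ∧ q ^ j ≤ 58) →
    ((q : ℕ) : ZMod 11) ^ j ≠ 1 := by
  decide

theorem root_check_23 : ∑ i ∈ Finset.range 11, (((4 : ℤ) : ZMod 23)) ^ i = 0 := by decide

theorem exists_principal_prime_over_23 (K : Type u) [Field K] [NumberField K]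
    [IsCyclotomicExtension {11} ℚ K] (N : ℕ) :
    ∃ P ∈ primesOver (span {((23 : ℕ) : ℤ)}) (𝓞 K),
      N < 23 ^ P.inertiaDeg ℤ ∨ Submodule.IsPrincipal P := by
  have : Fact (Nat.Prime 11) := ⟨by norm_num⟩
  have : Fact (Nat.Prime 23) := ⟨by norm_num⟩
  have hΦ := zetaInt_geom_sum 11 K
  simp only [Finset.sum_range_succ, Finset.sum_range_zero, zero_add, pow_zero, pow_one] at hΦ
  set θ := zetaInt 11 K with hθ
  refine exists_principal_prime_over 11 K 23 4 root_check_23 (1 + θ + θ ^ 3) ?_ ?_ ?_ N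
  · rw [mem_span_pair]
    refine ⟨3, θ ^ 2 + 4 * θ + 17, ?_⟩
    push_cast
    ring
  · refine ⟨-2 - 14 * θ - 17 * θ ^ 2 - 12 * θ ^ 3 - 5 * θ ^ 4 - 9 * θ ^ 5 - 10 * θ ^ 6
      - 16 * θ ^ 7 - 6 * θ ^ 8 - 15 * θ ^ 9, ?_⟩
    push_cast
    linear_combination (-(-25 + 9 * θ - 15 * θ ^ 2)) * hΦ
  · refine ⟨1 + 3 * θ + 3 * θ ^ 2 + 2 * θ ^ 3 + θ ^ 4 + 2 * θ ^ 5 + 2 * θ ^ 6 + 3 * θ ^ 7
      + θ ^ 8 + 3 * θ ^ 9, ?_⟩
    push_cast
    linear_combination (-(5 - 2 * θ + 3 * θ ^ 2)) * hΦ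

theorem pid_eleven (K : Type u) [Field K] [NumberField K] [IsCyclotomicExtension {11} ℚ K] :
    IsPrincipalIdealRing (𝓞 K) := by
  have : Fact (Nat.Prime 11) := ⟨by norm_num⟩
  have : IsGalois ℚ K := IsCyclotomicExtension.isGalois {11} ℚ K
  apply RingOfIntegers.isPrincipalIdealRing_of_isPrincipal_of_lt_or_isPrincipal_of_mem_primesOver_of_mem_Icc
  intro q hq hqp
  have hM := minkBound_eleven K
  change ∃ P ∈ primesOver (span {(q : ℤ)}) (𝓞 K),
      ⌊minkBound K⌋₊ < q ^ P.inertiaDeg ℤ ∨ Submodule.IsPrincipal P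
  have hq58 : q ≤ 58 := (Finset.mem_Icc.mp hq).2.trans hM
  have : Fact q.Prime := ⟨hqp⟩
  obtain ⟨⟨P, hP1, hP2⟩⟩ := (span {(q : ℤ)}).nonempty_primesOver (S := 𝓞 K)
  by_cases h11 : q = 11
  · subst h11
    refine ⟨P, ⟨hP1, hP2⟩, Or.inr ?_⟩
    rw [eq_span_zeta_sub_one_of_liesOver' 11 K (IsCyclotomicExtension.zeta_spec 11 ℚ K) P]
    exact ⟨⟨_, rfl⟩⟩
  by_cases h23 : q = 23
  · subst h23
    exact exists_principal_prime_over_23 K _
  · refine ⟨P, ⟨hP1, hP2⟩, Or.inl ?_⟩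
    have hndvd : ¬ q ∣ 11 := by
      intro hd
      exact h11 ((Nat.prime_dvd_prime_iff_eq hqp (by norm_num)).mp hd)
    rw [inertiaDeg_eq_of_not_dvd (m := 11) q K P hndvd]
    apply lt_of_le_of_lt hM
    apply lt_pow_orderOf_of_check (B := 6) ((Nat.coprime_primes hqp (by norm_num)).mpr h11)
      hqp.two_le (by norm_num)
    intro j hj hj1 hj2
    exact check_eleven q (by omega) j hj ⟨hqp, h11, h23, hj1, hj2⟩

end Fermat.Agent.FLTSmall
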