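import Fermat.Agent.FLTSmall.CaseI
import Fermat.Agent.FLTSmall.CaseIIInt
import Fermat.Agent.FLTSmall.KummerCert11
import Fermat.Agent.FLTSmall.PID11

/-!
# FLTSmall / M6: Fermat's Last Theorem for the exponent `11` (coprime integer form)
-/

set_option autoImplicit false

namespace Fermat.Agent.FLTSmall

open NumberField

/-- **Fermat's Last Theorem for `p = 11`**: a coprime integer solution of
`a ^ 11 + b ^ 11 = c ^ 11` has `a * b * c = 0`. -/
theorem flt_eleven_int (a b c : ℤ) (hab : IsCoprime a b) (h : a ^ 11 + b ^ 11 = c ^ 11) :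
    a * b * c = 0 := by
  have hp : Fact (Nat.Prime 11) := ⟨by norm_num⟩
  have h11 : NeZero ((11 : ℕ) : ℚ) := ⟨by norm_num⟩
  have hcyc : IsCyclotomicExtension {11} ℚ (CyclotomicField 11 ℚ) :=
    CyclotomicField.isCyclotomicExtension 11 ℚ
  have hPID : IsPrincipalIdealRing (𝓞 (CyclotomicField 11 ℚ)) := pid_eleven (CyclotomicField 11 ℚ)
  exact caseII_int (p := 11) (K := CyclotomicField 11 ℚ) (by norm_num)
    (fun u ⟨n, hn⟩ => kummer_eleven u n hn) a b c hab h (caseI_eleven hab h)

end Fermat.Agent.FLTSmall
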