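import Mathlib
import Fermat.Agent.FLTSmall.KummerDlog

/-!
# FLTSmall / Kummer's lemma for `p = 13`: the explicit certificate  (OWNER: helper2)

Machine-generated: the rows of `kw` are the coefficients of `dlog` of the cyclotomic units
`ζ, 1 + ζ, 1 + ζ + ζ², …` in `𝔽_p[X]/(X^(p-2))`, `kL` is a right inverse of that matrix mod `p`.
-/

set_option autoImplicit false

open Polynomial NumberField

namespace Fermat.Agent.FLTSmall

/-- Coefficients of the logarithmic derivatives of the cyclotomic units, `p = 13`. -/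
def kw13 : Fin 6 → Fin 11 → ℕ := ![![1, 12, 1, 12, 1, 12, 1, 12, 1, 12, 1], ![7, 3, 5, 4, 11, 1, 6, 10, 8, 9, 2], ![1, 4, 0, 3, 10, 2, 12, 9, 0, 10, 3], ![8, 3, 11, 11, 1, 1, 11, 5, 4, 9, 4], ![2, 0, 12, 6, 0, 2, 11, 4, 7, 3, 5], ![9, 8, 3, 8, 9, 1, 6, 7, 6, 7, 6]]

/-- A right inverse of `kw13` modulo `13`. -/
def kL13 : Fin 11 → Fin 6 → ZMod 13 := ![![1, 10, 12, 7, 4, 4], ![3, 2, 12, 11, 2, 1], ![0, 0, 0, 0, 0, 0], ![3, 10, 2, 9, 2, 2], ![0, 0, 0, 0, 0, 0], ![9, 7, 4, 9, 7, 11], ![0, 0, 0, 0, 0, 0], ![7, 11, 0, 6, 1, 1], ![0, 0, 0, 0, 0, 0], ![4, 6, 7, 11, 5, 2], ![0, 0, 0, 0, 0, 0]]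

theorem kcert13 : IsRightInvCert 13 11 6 kw13 kL13 := by
  unfold IsRightInvCert
  decide

/-- **Kummer's lemma for `p = 13`.** -/
theorem kummer_thirteen [Fact (Nat.Prime 13)] {K : Type*} [Field K] [NumberField K]
    [IsCyclotomicExtension {13} ℚ K] (u : (𝓞 K)ˣ) (a : ℤ)
    (h : ((13 : ℕ) : 𝓞 K) ∣ (u : 𝓞 K) - a) : ∃ v : (𝓞 K)ˣ, u = v ^ 13 := by
  have hx : kx 13 ^ 11 = 0 := kx_pow 13
  have hp : (13 : KV 13) = 0 := by exact_mod_cast KV_natCast_self 13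
  refine kummer_of_cert (p := 13) (by norm_num) 6 (by norm_num)
    (fun i => ∑ j : Fin 11, (kw13 i j : KV 13) * kx 13 ^ (j : ℕ)) ?_ ?_
    (linearIndependent_of_matrix_cert 13 11 6 (by norm_num) kw13 kL13 kcert13) u a h
  · intro j hj
    fin_cases j
    · simp [kw13, Fin.sum_univ_succ]
      linear_combination ((1)) * hx + ((1) * kx 13 + (1) * kx 13 ^ 2 + (1) * kx 13 ^ 3 + (1) * kx 13 ^ 4 + (1) * kx 13 ^ 5 + (1) * kx 13 ^ 6 + (1) * kx 13 ^ 7 + (1) * kx 13 ^ 8 + (1) * kx 13 ^ 9 + (1) * kx 13 ^ 10) * hp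
    · simp at hj
    · simp at hj
    · simp at hj
    · simp at hj
    · simp at hj
  · intro j hj
    fin_cases j
    · simp at hj
    · simp [kw13, Fin.sum_univ_succ, Finset.sum_range_succ]
      linear_combination ((2)) * hx + ((1) + (1) * kx 13 + (1) * kx 13 ^ 2 + (1) * kx 13 ^ 3 + (2) * kx 13 ^ 4 + (1) * kx 13 ^ 5 + (1) * kx 13 ^ 6 + (2) * kx 13 ^ 7 + (2) * kx 13 ^ 8 + (2) * kx 13 ^ 9 + (1) * kx 13 ^ 10) * hp
    · simp [kw13, Fin.sum_univ_succ, Finset.sum_range_succ]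
      linear_combination ((19) + (3) * kx 13) * hx + ((1) * kx 13 + (1) * kx 13 ^ 2 + (1) * kx 13 ^ 3 + (3) * kx 13 ^ 4 + (3) * kx 13 ^ 5 + (4) * kx 13 ^ 6 + (5) * kx 13 ^ 7 + (3) * kx 13 ^ 8 + (3) * kx 13 ^ 9 + (3) * kx 13 ^ 10) * hp
    · simp [kw13, Fin.sum_univ_succ, Finset.sum_range_succ]
      linear_combination ((64) + (25) * kx 13 + (4) * kx 13 ^ 2) * hx + ((2) + (4) * kx 13 + (7) * kx 13 ^ 2 + (10) * kx 13 ^ 3 + (9) * kx 13 ^ 4 + (5) * kx 13 ^ 5 + (5) * kx 13 ^ 6 + (7) * kx 13 ^ 7 + (7) * kx 13 ^ 8 + (7) * kx 13 ^ 9 + (7) * kx 13 ^ 10) * hp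
    · simp [kw13, Fin.sum_univ_succ, Finset.sum_range_succ]
      linear_combination ((119) + (72) * kx 13 + (28) * kx 13 ^ 2 + (5) * kx 13 ^ 3) * hx + ((5) * kx 13 ^ 2 + (12) * kx 13 ^ 3 + (14) * kx 13 ^ 4 + (10) * kx 13 ^ 5 + (9) * kx 13 ^ 6 + (12) * kx 13 ^ 7 + (15) * kx 13 ^ 8 + (14) * kx 13 ^ 9 + (12) * kx 13 ^ 10) * hp
    · simp [kw13, Fin.sum_univ_succ, Finset.sum_range_succ]
      linear_combination ((368) + (268) * kx 13 + (138) * kx 13 ^ 2 + (43) * kx 13 ^ 3 + (6) * kx 13 ^ 4) * hx + ((3) + (11) * kx 13 + (21) * kx 13 ^ 2 + (28) * kx 13 ^ 3 + (31) * kx 13 ^ 4 + (31) * kx 13 ^ 5 + (29) * kx 13 ^ 6 + (26) * kx 13 ^ 7 + (26) * kx 13 ^ 8 + (29) * kx 13 ^ 9 + (31) * kx 13 ^ 10) * hp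

end Fermat.Agent.FLTSmall
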