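import Fermat.Agent.FLTSmall.PIDBasic

/-!
# `ℤ[ζ₁₃]` is a principal ideal domain
-/

namespace Fermat.Agent.FLTSmall

open NumberField Polynomial InfinitePlace Nat Real Ideal IsCyclotomicExtension.Rat cyclotomic
open NumberField.Ideal RingOfIntegers
open scoped NumberField

universe u

section general

variable (p : ℕ) [hp : Fact p.Prime] (K : Type u) [Field K] [NumberField K]
  [hK : IsCyclotomicExtension {p} ℚ K]

/-- If the monic `Q ∈ ℤ[X]` reduces to an irreducible factor of the `p`-th cyclotomic polynomial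
modulo `q`, then `(q, Q(ζ))` is a prime of `𝓞 K` over `q`; if it equals `(α)` we get a principal
prime over `q`. -/
theorem exists_principal_prime_over_poly (q : ℕ) [hq : Fact q.Prime] (Q : ℤ[X]) (hQm : Q.Monic)
    (hirr : Irreducible (Q.map (Int.castRingHom (ZMod q))))
    (hdvd : Q.map (Int.castRingHom (ZMod q)) ∣ (cyclotomic p ℤ).map (Int.castRingHom (ZMod q)))
    (α : 𝓞 K)
    (h1 : α ∈ span {(q : 𝓞 K), aeval (zetaInt p K) Q})
    (h2 : α ∣ (q : 𝓞 K)) (h3 : α ∣ aeval (zetaInt p K) Q) (N : ℕ) :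
    ∃ P ∈ primesOver (span {(q : ℤ)}) (𝓞 K),
      N < q ^ P.inertiaDeg ℤ ∨ Submodule.IsPrincipal P := by
  have hexp := not_dvd_exponent_zetaInt p K q
  have hQ : Q.map (Int.castRingHom (ZMod q)) ∈ monicFactorsMod (zetaInt p K) q := by
    rw [Multiset.mem_toFinset, Polynomial.mem_normalizedFactors_iff
      (map_monic_ne_zero (minpoly.monic (zetaInt p K).isIntegral))]
    refine ⟨hirr, hQm.map _, ?_⟩
    rw [minpoly_zetaInt]
    exact hdvd
  have hspan := primesOverSpanEquivMonicFactorsMod_symm_apply_eq_span hexp hQ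
  refine ⟨_, ((primesOverSpanEquivMonicFactorsMod hexp).symm ⟨_, hQ⟩).2, Or.inr ?_⟩
  rw [hspan]
  have : span {(q : 𝓞 K), aeval (zetaInt p K) Q} = span {α} := by
    apply le_antisymm
    · rw [span_le]
      rintro x (rfl | rfl)
      · exact mem_span_singleton.mpr h2
      · exact mem_span_singleton.mpr h3
    · rw [span_le]
      rintro x rfl
      exact h1
  rw [this]
  exact ⟨⟨α, rfl⟩⟩

end general

theorem minkBound_thirteen (K : Type u) [Field K] [NumberField K]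
    [IsCyclotomicExtension {13} ℚ K] : ⌊minkBound K⌋₊ ≤ 306 := by
  have : Fact (Nat.Prime 13) := ⟨by norm_num⟩
  have h1 : discr K = 13 ^ 11 := by
    rw [discr_prime 13 K]
    norm_num
  have h2 : Module.finrank ℚ K = 12 := by
    rw [IsCyclotomicExtension.finrank (n := 13) K (irreducible_rat (by simp)),
      totient_prime (by norm_num)]
  have h3 : nrComplexPlaces K = 6 := by
    rw [nrComplexPlaces_eq_totient_div_two 13, totient_prime (by norm_num)]
  have hlt : minkBound K < 307 := by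
    rw [minkBound, h1, h2, h3]
    have hpi : (3.1415 : ℝ) < π := Real.pi_gt_d4
    have hs : √|((13 ^ 11 : ℤ) : ℝ)| < 1338717 := by
      rw [Real.sqrt_lt' (by norm_num)]
      norm_num
    have h4 : (4 / π) ^ 6 < (4 / 3.1415 : ℝ) ^ 6 := by
      gcongr
    have hfact : ((12 : ℕ)! : ℝ) = 479001600 := by
      norm_num [Nat.factorial]
    rw [hfact]
    calc (4 / π) ^ 6 * ((479001600 : ℝ) / ((12 : ℕ) : ℝ) ^ 12 * √|((13 ^ 11 : ℤ) : ℝ)|)
        ≤ (4 / 3.1415 : ℝ) ^ 6 * ((479001600 : ℝ) / ((12 : ℕ) : ℝ) ^ 12 * 1338717) := by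
          gcongr
      _ < 307 := by norm_num
  exact Nat.le_of_lt_succ ((Nat.floor_lt (by positivity)).mpr (by exact_mod_cast hlt))

set_option maxRecDepth 1000000 in
theorem check_thirteen : ∀ q < 307, ∀ j < 9,
    (q.Prime ∧ q ∉ ({13, 3, 53, 79, 131, 157} : Finset ℕ) ∧ 1 ≤ j ∧ q ^ j ≤ 306) →
    ((q : ℕ) : ZMod 13) ^ j ≠ 1 := by
  decide +kernel

/-! ### The prime `3` (inertia degree `3`) -/

theorem cubic_three_no_root : ∀ x : ZMod 3, x ^ 3 - x - 1 ≠ 0 := by decide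

theorem map_cubic_three :
    (X ^ 3 - X - 1 : ℤ[X]).map (Int.castRingHom (ZMod 3)) = X ^ 3 - X - 1 := by
  simp

theorem irreducible_cubic_three :
    Irreducible ((X ^ 3 - X - 1 : ℤ[X]).map (Int.castRingHom (ZMod 3))) := by
  rw [map_cubic_three]
  have hdeg : (X ^ 3 - X - 1 : (ZMod 3)[X]).natDegree = 3 := by
    compute_degree!
  apply irreducible_of_degree_le_three_of_not_isRoot
  · rw [hdeg]; decide
  · intro x hx
    apply cubic_three_no_root x
    simpa [IsRoot] using hx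

theorem monic_cubic_three : (X ^ 3 - X - 1 : ℤ[X]).Monic := by
  have : (X ^ 3 - X - 1 : ℤ[X]) = X ^ 3 - (X + 1) := by ring
  rw [this]
  apply monic_X_pow_sub
  have : (X + 1 : ℤ[X]).degree = 1 := by
    compute_degree!
  rw [this]
  norm_num

theorem cubic_three_dvd :
    (X ^ 3 - X - 1 : ℤ[X]).map (Int.castRingHom (ZMod 3)) ∣
      (cyclotomic 13 ℤ).map (Int.castRingHom (ZMod 3)) := by
  have : Fact (Nat.Prime 13) := ⟨by norm_num⟩
  have key : (X ^ 3 - X - 1 : ℤ[X]) * (-1 - X ^ 2 - X ^ 3 + X ^ 5 - X ^ 7 + X ^ 8 + X ^ 9)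
      = cyclotomic 13 ℤ + C 3 * (-X ^ 5 - X ^ 6 - X ^ 9 - X ^ 10) := by
    rw [cyclotomic_prime]
    simp only [Finset.sum_range_succ, Finset.sum_range_zero, zero_add, pow_zero, pow_one]
    simp only [map_ofNat]
    ring
  refine ⟨(-1 - X ^ 2 - X ^ 3 + X ^ 5 - X ^ 7 + X ^ 8 + X ^ 9 : ℤ[X]).map
    (Int.castRingHom (ZMod 3)), ?_⟩
  rw [← Polynomial.map_mul, key, Polynomial.map_add, Polynomial.map_mul, Polynomial.map_C]
  have h3 : (Int.castRingHom (ZMod 3)) 3 = 0 := by decide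
  rw [h3]
  simp

theorem exists_principal_prime_over13_3 (K : Type u) [Field K] [NumberField K]
    [IsCyclotomicExtension {13} ℚ K] (N : ℕ) :
    ∃ P ∈ primesOver (span {((3 : ℕ) : ℤ)}) (𝓞 K),
      N < 3 ^ P.inertiaDeg ℤ ∨ Submodule.IsPrincipal P := by
  have : Fact (Nat.Prime 13) := ⟨by norm_num⟩
  have : Fact (Nat.Prime 3) := ⟨by norm_num⟩
  have hΦ := zetaInt_geom_sum 13 K
  simp only [Finset.sum_range_succ, Finset.sum_range_zero, zero_add, pow_zero, pow_one] at hΦ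
  have hev : aeval (zetaInt 13 K) (X ^ 3 - X - 1 : ℤ[X]) =
      (zetaInt 13 K) ^ 3 - zetaInt 13 K - 1 := by
    simp
  set θ := zetaInt 13 K with hθ
  refine exists_principal_prime_over_poly 13 K 3 (X ^ 3 - X - 1) monic_cubic_three
    irreducible_cubic_three cubic_three_dvd (1 + θ - θ ^ 3) ?_ ?_ ?_ N
  · rw [mem_span_pair, hev]
    refine ⟨0, -1, ?_⟩
    ring
  · refine ⟨-1 - θ^2 - θ^3 - 2 * θ^5 - θ^7 - 2 * θ^8 + θ^9 - 3 * θ^10, ?_⟩
    push_cast
    linear_combination (-(-4 + 3 * θ)) * hΦ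
  · rw [hev]
    refine ⟨-1, ?_⟩
    ring

/-! ### The primes `53, 79, 131, 157` (inertia degree `1`) -/

theorem root_check13_53 : ∑ i ∈ Finset.range 13, (((36 : ℤ) : ZMod 53)) ^ i = 0 := by decide

theorem exists_principal_prime_over13_53 (K : Type u) [Field K] [NumberField K]
    [IsCyclotomicExtension {13} ℚ K] (N : ℕ) :
    ∃ P ∈ primesOver (span {((53 : ℕ) : ℤ)}) (𝓞 K),
      N < 53 ^ P.inertiaDeg ℤ ∨ Submodule.IsPrincipal P := by
  have : Fact (Nat.Prime 13) := ⟨by norm_num⟩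
  have : Fact (Nat.Prime 53) := ⟨by norm_num⟩
  have hΦ := zetaInt_geom_sum 13 K
  simp only [Finset.sum_range_succ, Finset.sum_range_zero, zero_add, pow_zero, pow_one] at hΦ
  set θ := zetaInt 13 K with hθ
  refine exists_principal_prime_over 13 K 53 36 root_check13_53 (1 + θ + θ^3) ?_ ?_ ?_ N
  · rw [mem_span_pair]
    refine ⟨881, 1297 + 36 * θ + θ^2, ?_⟩
    push_cast
    ring
  · refine ⟨1 - 24 * θ - 35 * θ^2 - 25 * θ^3 - 10 * θ^4 - 14 * θ^5 - 20 * θ^6 - 29 * θ^7 - 16 * θ^8 - 23 * θ^9 - 7 * θ^10 - 36 * θ^11, ?_⟩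
    push_cast
    linear_combination (-(-52 + 29 * θ - 36 * θ^2)) * hΦ
  · refine ⟨17 * θ + 24 * θ^2 + 17 * θ^3 + 7 * θ^4 + 10 * θ^5 + 14 * θ^6 + 20 * θ^7 + 11 * θ^8 + 16 * θ^9 + 5 * θ^10 + 25 * θ^11, ?_⟩
    push_cast
    linear_combination (-(36 - 20 * θ + 25 * θ^2)) * hΦ

theorem root_check13_79 : ∑ i ∈ Finset.range 13, (((64 : ℤ) : ZMod 79)) ^ i = 0 := by decide

theorem exists_principal_prime_over13_79 (K : Type u) [Field K] [NumberField K]
    [IsCyclotomicExtension {13} ℚ K] (N : ℕ) :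
    ∃ P ∈ primesOver (span {((79 : ℕ) : ℤ)}) (𝓞 K),
      N < 79 ^ P.inertiaDeg ℤ ∨ Submodule.IsPrincipal P := by
  have : Fact (Nat.Prime 13) := ⟨by norm_num⟩
  have : Fact (Nat.Prime 79) := ⟨by norm_num⟩
  have hΦ := zetaInt_geom_sum 13 K
  simp only [Finset.sum_range_succ, Finset.sum_range_zero, zero_add, pow_zero, pow_one] at hΦ
  set θ := zetaInt 13 K with hθ
  refine exists_principal_prime_over 13 K 79 64 root_check13_79 (1 + θ - θ^4) ?_ ?_ ?_ N
  · rw [mem_span_pair]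
    refine ⟨-212369, -262143 - 4096 * θ - 64 * θ^2 - θ^3, ?_⟩
    push_cast
    ring
  · refine ⟨24 - 25 * θ - 27 * θ^2 + 10 * θ^3 - 3 * θ^4 - 39 * θ^5 - 5 * θ^6 - 2 * θ^7 - 18 * θ^8 - 38 * θ^9 + 16 * θ^10 - 35 * θ^11, ?_⟩
    push_cast
    linear_combination (-(-55 + 54 * θ - 51 * θ^2 + 35 * θ^3)) * hΦ
  · refine ⟨-19 + 21 * θ + 22 * θ^2 - 8 * θ^3 + 3 * θ^4 + 32 * θ^5 + 4 * θ^6 + 2 * θ^7 + 15 * θ^8 + 31 * θ^9 - 13 * θ^10 + 29 * θ^11, ?_⟩
    push_cast
    linear_combination (-(45 - 44 * θ + 42 * θ^2 - 29 * θ^3)) * hΦ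

theorem root_check13_131 : ∑ i ∈ Finset.range 13, (((80 : ℤ) : ZMod 131)) ^ i = 0 := by decide

theorem exists_principal_prime_over13_131 (K : Type u) [Field K] [NumberField K]
    [IsCyclotomicExtension {13} ℚ K] (N : ℕ) :
    ∃ P ∈ primesOver (span {((131 : ℕ) : ℤ)}) (𝓞 K),
      N < 131 ^ P.inertiaDeg ℤ ∨ Submodule.IsPrincipal P := by
  have : Fact (Nat.Prime 13) := ⟨by norm_num⟩
  have : Fact (Nat.Prime 131) := ⟨by norm_num⟩
  have hΦ := zetaInt_geom_sum 13 K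
  simp only [Finset.sum_range_succ, Finset.sum_range_zero, zero_add, pow_zero, pow_one] at hΦ
  set θ := zetaInt 13 K with hθ
  refine exists_principal_prime_over 13 K 131 80 root_check13_131 (1 - θ - θ^3) ?_ ?_ ?_ N
  · rw [mem_span_pair]
    refine ⟨-3909, -6401 - 80 * θ - θ^2, ?_⟩
    push_cast
    ring
  · refine ⟨111 + 78 * θ + 17 * θ^2 + 67 * θ^3 + 84 * θ^4 + 40 * θ^5 + 46 * θ^6 + 69 * θ^7 + 48 * θ^8 + 33 * θ^9 + 41 * θ^10 + 28 * θ^11, ?_⟩
    push_cast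
    linear_combination (-(-20 - 13 * θ - 28 * θ^2)) * hΦ
  · refine ⟨-68 - 47 * θ - 10 * θ^2 - 41 * θ^3 - 51 * θ^4 - 24 * θ^5 - 28 * θ^6 - 42 * θ^7 - 29 * θ^8 - 20 * θ^9 - 25 * θ^10 - 17 * θ^11, ?_⟩
    push_cast
    linear_combination (-(12 + 8 * θ + 17 * θ^2)) * hΦ

theorem root_check13_157 : ∑ i ∈ Finset.range 13, (((75 : ℤ) : ZMod 157)) ^ i = 0 := by decide

theorem exists_principal_prime_over13_157 (K : Type u) [Field K] [NumberField K]
    [IsCyclotomicExtension {13} ℚ K] (N : ℕ) :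
    ∃ P ∈ primesOver (span {((157 : ℕ) : ℤ)}) (𝓞 K),
      N < 157 ^ P.inertiaDeg ℤ ∨ Submodule.IsPrincipal P := by
  have : Fact (Nat.Prime 13) := ⟨by norm_num⟩
  have : Fact (Nat.Prime 157) := ⟨by norm_num⟩
  have hΦ := zetaInt_geom_sum 13 K
  simp only [Finset.sum_range_succ, Finset.sum_range_zero, zero_add, pow_zero, pow_one] at hΦ
  set θ := zetaInt 13 K with hθ
  refine exists_principal_prime_over 13 K 157 75 root_check13_157 (1 - θ + θ^2 + θ^4) ?_ ?_ ?_ N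
  · rw [mem_span_pair]
    refine ⟨201568, 421949 + 5626 * θ + 75 * θ^2 + θ^3, ?_⟩
    push_cast
    ring
  · refine ⟨89 + 86 * θ + 42 * θ^2 + 77 * θ^3 + 67 * θ^4 + 25 * θ^5 + 37 * θ^6 + 56 * θ^7 + 73 * θ^8 + 113 * θ^9 + 124 * θ^10 + 76 * θ^11, ?_⟩
    push_cast
    linear_combination (-(-68 + 65 * θ + 48 * θ^2 + 76 * θ^3)) * hΦ
  · refine ⟨-43 - 41 * θ - 20 * θ^2 - 37 * θ^3 - 32 * θ^4 - 12 * θ^5 - 18 * θ^6 - 27 * θ^7 - 35 * θ^8 - 54 * θ^9 - 59 * θ^10 - 36 * θ^11, ?_⟩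
    push_cast
    linear_combination (-(32 - 31 * θ - 23 * θ^2 - 36 * θ^3)) * hΦ


/-! ### The main theorem -/

theorem pid_thirteen (K : Type u) [Field K] [NumberField K] [IsCyclotomicExtension {13} ℚ K] :
    IsPrincipalIdealRing (𝓞 K) := by
  have : Fact (Nat.Prime 13) := ⟨by norm_num⟩
  have : IsGalois ℚ K := IsCyclotomicExtension.isGalois {13} ℚ K
  apply RingOfIntegers.isPrincipalIdealRing_of_isPrincipal_of_lt_or_isPrincipal_of_mem_primesOver_of_mem_Icc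
  intro q hq hqp
  have hM := minkBound_thirteen K
  change ∃ P ∈ primesOver (span {(q : ℤ)}) (𝓞 K),
      ⌊minkBound K⌋₊ < q ^ P.inertiaDeg ℤ ∨ Submodule.IsPrincipal P
  have hq306 : q ≤ 306 := (Finset.mem_Icc.mp hq).2.trans hM
  have : Fact q.Prime := ⟨hqp⟩
  obtain ⟨⟨P, hP1, hP2⟩⟩ := (span {(q : ℤ)}).nonempty_primesOver (S := 𝓞 K)
  by_cases h13 : q = 13
  · subst h13
    refine ⟨P, ⟨hP1, hP2⟩, Or.inr ?_⟩
    rw [eq_span_zeta_sub_one_of_liesOver' 13 K (IsCyclotomicExtension.zeta_spec 13 ℚ K) P]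
    exact ⟨⟨_, rfl⟩⟩
  by_cases h3 : q = 3
  · subst h3
    exact exists_principal_prime_over13_3 K _
  by_cases h53 : q = 53
  · subst h53
    exact exists_principal_prime_over13_53 K _
  by_cases h79 : q = 79
  · subst h79
    exact exists_principal_prime_over13_79 K _
  by_cases h131 : q = 131
  · subst h131
    exact exists_principal_prime_over13_131 K _
  by_cases h157 : q = 157
  · subst h157
    exact exists_principal_prime_over13_157 K _
  · refine ⟨P, ⟨hP1, hP2⟩, Or.inl ?_⟩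
    have hndvd : ¬ q ∣ 13 := by
      intro hd
      exact h13 ((Nat.prime_dvd_prime_iff_eq hqp (by norm_num)).mp hd)
    rw [inertiaDeg_eq_of_not_dvd (m := 13) q K P hndvd]
    apply lt_of_le_of_lt hM
    apply lt_pow_orderOf_of_check (B := 9) ((Nat.coprime_primes hqp (by norm_num)).mpr h13)
      hqp.two_le (by norm_num)
    intro j hj hj1 hj2
    refine check_thirteen q (by omega) j hj ⟨hqp, ?_, hj1, hj2⟩
    simp only [Finset.mem_insert, Finset.mem_singleton, not_or]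
    exact ⟨h13, h3, h53, h79, h131, h157⟩

end Fermat.Agent.FLTSmall
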