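import Mathlib
import Fermat.Agent.FLTSmall.KummerDlog

/-!
# FLTSmall / Kummer's lemma for `p = 5`: the explicit certificate  (OWNER: helper2)

Machine-generated: the rows of `kw` are the coefficients of `dlog` of the cyclotomic units
`ζ, 1 + ζ, 1 + ζ + ζ², …` in `𝔽_p[X]/(X^(p-2))`, `kL` is a right inverse of that matrix mod `p`.
-/

set_option autoImplicit false

open Polynomial NumberField

namespace Fermat.Agent.FLTSmall

/-- Coefficients of the logarithmic derivatives of the cyclotomic units, `p = 5`. -/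
def kw5 : Fin 2 → Fin 3 → ℕ := ![![1, 4, 1], ![3, 1, 2]]

/-- A right inverse of `kw5` modulo `5`. -/
def kL5 : Fin 3 → Fin 2 → ZMod 5 := ![![4, 4], ![3, 4], ![0, 0]]

theorem kcert5 : IsRightInvCert 5 3 2 kw5 kL5 := by
  unfold IsRightInvCert
  decide

/-- **Kummer's lemma for `p = 5`.** -/
theorem kummer_five [Fact (Nat.Prime 5)] {K : Type*} [Field K] [NumberField K]
    [IsCyclotomicExtension {5} ℚ K] (u : (𝓞 K)ˣ) (a : ℤ)
    (h : ((5 : ℕ) : 𝓞 K) ∣ (u : 𝓞 K) - a) : ∃ v : (𝓞 K)ˣ, u = v ^ 5 := by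
  have hx : kx 5 ^ 3 = 0 := kx_pow 5
  have hp : (5 : KV 5) = 0 := by exact_mod_cast KV_natCast_self 5
  refine kummer_of_cert (p := 5) (by norm_num) 2 (by norm_num)
    (fun i => ∑ j : Fin 3, (kw5 i j : KV 5) * kx 5 ^ (j : ℕ)) ?_ ?_
    (linearIndependent_of_matrix_cert 5 3 2 (by norm_num) kw5 kL5 kcert5) u a h
  · intro j hj
    fin_cases j
    · simp [kw5, Fin.sum_univ_succ]
      linear_combination ((1)) * hx + ((1) * kx 5 + (1) * kx 5 ^ 2) * hp
    · simp at hj
  · intro j hj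
    fin_cases j
    · simp at hj
    · simp [kw5, Fin.sum_univ_succ, Finset.sum_range_succ]
      linear_combination ((2)) * hx + ((1) + (1) * kx 5 + (1) * kx 5 ^ 2) * hp

end Fermat.Agent.FLTSmall
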