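import Fermat.Agent.FLTSmall.CaseI
import Fermat.Agent.FLTSmall.CaseIIInt
import Fermat.Agent.FLTSmall.KummerCert5


/-!
# FLTSmall / M6: Fermat's Last Theorem for the exponent `5` (coprime integer form)
-/

set_option autoImplicit false

namespace Fermat.Agent.FLTSmall

open NumberField

/-- **Fermat's Last Theorem for `p = 5`**: a coprime integer solution of
`a ^ 5 + b ^ 5 = c ^ 5` has `a * b * c = 0`. -/
theorem flt_five_int (a b c : ℤ) (hab : IsCoprime a b) (h : a ^ 5 + b ^ 5 = c ^ 5) :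
    a * b * c = 0 := by
  have hp : Fact (Nat.Prime 5) := ⟨by norm_num⟩
  have hne : NeZero ((5 : ℕ) : ℚ) := ⟨by norm_num⟩
  have hcyc : IsCyclotomicExtension {5} ℚ (CyclotomicField 5 ℚ) :=
    CyclotomicField.isCyclotomicExtension 5 ℚ
  have hPID : IsPrincipalIdealRing (𝓞 (CyclotomicField 5 ℚ)) := IsCyclotomicExtension.Rat.five_pid (CyclotomicField 5 ℚ)
  exact caseII_int (p := 5) (K := CyclotomicField 5 ℚ) (by norm_num)
    (fun u ⟨n, hn⟩ => kummer_five u n hn) a b c hab h (caseI_five hab h)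

end Fermat.Agent.FLTSmall
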