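import Mathlib
import Fermat.Agent.FLTSmall.KummerDlog

/-!
# FLTSmall / Kummer's lemma for `p = 7`: the explicit certificate  (OWNER: helper2)

Machine-generated: the rows of `kw` are the coefficients of `dlog` of the cyclotomic units
`ζ, 1 + ζ, 1 + ζ + ζ², …` in `𝔽_p[X]/(X^(p-2))`, `kL` is a right inverse of that matrix mod `p`.
-/

set_option autoImplicit false

open Polynomial NumberField

namespace Fermat.Agent.FLTSmall

/-- Coefficients of the logarithmic derivatives of the cyclotomic units, `p = 7`. -/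
def kw7 : Fin 3 → Fin 5 → ℕ := ![![1, 6, 1, 6, 1], ![4, 5, 1, 3, 2], ![1, 2, 0, 4, 3]]

/-- A right inverse of `kw7` modulo `7`. -/
def kL7 : Fin 5 → Fin 3 → ZMod 7 := ![![0, 3, 3], ![5, 4, 0], ![0, 0, 0], ![1, 6, 3], ![0, 0, 0]]

theorem kcert7 : IsRightInvCert 7 5 3 kw7 kL7 := by
  unfold IsRightInvCert
  decide

/-- **Kummer's lemma for `p = 7`.** -/
theorem kummer_seven [Fact (Nat.Prime 7)] {K : Type*} [Field K] [NumberField K]
    [IsCyclotomicExtension {7} ℚ K] (u : (𝓞 K)ˣ) (a : ℤ)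
    (h : ((7 : ℕ) : 𝓞 K) ∣ (u : 𝓞 K) - a) : ∃ v : (𝓞 K)ˣ, u = v ^ 7 := by
  have hx : kx 7 ^ 5 = 0 := kx_pow 7
  have hp : (7 : KV 7) = 0 := by exact_mod_cast KV_natCast_self 7
  refine kummer_of_cert (p := 7) (by norm_num) 3 (by norm_num)
    (fun i => ∑ j : Fin 5, (kw7 i j : KV 7) * kx 7 ^ (j : ℕ)) ?_ ?_
    (linearIndependent_of_matrix_cert 7 5 3 (by norm_num) kw7 kL7 kcert7) u a h
  · intro j hj
    fin_cases j
    · simp [kw7, Fin.sum_univ_succ]
      linear_combination ((1)) * hx + ((1) * kx 7 + (1) * kx 7 ^ 2 + (1) * kx 7 ^ 3 + (1) * kx 7 ^ 4) * hp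
    · simp at hj
    · simp at hj
  · intro j hj
    fin_cases j
    · simp at hj
    · simp [kw7, Fin.sum_univ_succ, Finset.sum_range_succ]
      linear_combination ((2)) * hx + ((1) + (2) * kx 7 + (1) * kx 7 ^ 2 + (1) * kx 7 ^ 3 + (1) * kx 7 ^ 4) * hp
    · simp [kw7, Fin.sum_univ_succ, Finset.sum_range_succ]
      linear_combination ((13) + (3) * kx 7) * hx + ((1) * kx 7 + (1) * kx 7 ^ 2 + (2) * kx 7 ^ 3 + (3) * kx 7 ^ 4) * hp

end Fermat.Agent.FLTSmall
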