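import Fermat.Agent.FLTSmall.PIDBasic

/-!
# `ℤ[ζ₇]` is a principal ideal domain
-/

namespace Fermat.Agent.FLTSmall

open NumberField Polynomial InfinitePlace Nat Real Ideal IsCyclotomicExtension.Rat cyclotomic
open NumberField.Ideal RingOfIntegers
open scoped NumberField

universe u

theorem minkBound_seven (K : Type u) [Field K] [NumberField K]
    [IsCyclotomicExtension {7} ℚ K] : ⌊minkBound K⌋₊ ≤ 4 := by
  have : Fact (Nat.Prime 7) := ⟨by norm_num⟩
  have h1 : discr K = -7 ^ 5 := by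
    rw [discr_prime 7 K]
    norm_num
  have h2 : Module.finrank ℚ K = 6 := by
    rw [IsCyclotomicExtension.finrank (n := 7) K (irreducible_rat (by simp)),
      totient_prime (by norm_num)]
  have h3 : nrComplexPlaces K = 3 := by
    rw [nrComplexPlaces_eq_totient_div_two 7, totient_prime (by norm_num)]
  have hlt : minkBound K < 5 := by
    rw [minkBound, h1, h2, h3]
    have hpi : (3.14 : ℝ) < π := Real.pi_gt_d2
    have hs : √|((-7 ^ 5 : ℤ) : ℝ)| < 130 := by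
      rw [Real.sqrt_lt' (by norm_num)]
      norm_num
    have h4 : (4 / π) ^ 3 < (4 / 3.14 : ℝ) ^ 3 := by
      gcongr
    have hfact : ((6 : ℕ)! : ℝ) = 720 := by
      norm_num [Nat.factorial]
    rw [hfact]
    calc (4 / π) ^ 3 * ((720 : ℝ) / ((6 : ℕ) : ℝ) ^ 6 * √|((-7 ^ 5 : ℤ) : ℝ)|)
        ≤ (4 / 3.14 : ℝ) ^ 3 * ((720 : ℝ) / ((6 : ℕ) : ℝ) ^ 6 * 130) := by
          gcongr
      _ < 5 := by norm_num
  exact Nat.le_of_lt_succ ((Nat.floor_lt (by positivity)).mpr (by exact_mod_cast hlt))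

set_option maxRecDepth 100000 in
theorem check_seven : ∀ q < 5, ∀ j < 3, (q.Prime ∧ q ≠ 7 ∧ 1 ≤ j ∧ q ^ j ≤ 4) →
    ((q : ℕ) : ZMod 7) ^ j ≠ 1 := by
  decide

theorem pid_seven (K : Type u) [Field K] [NumberField K] [IsCyclotomicExtension {7} ℚ K] :
    IsPrincipalIdealRing (𝓞 K) := by
  have : Fact (Nat.Prime 7) := ⟨by norm_num⟩
  have : IsGalois ℚ K := IsCyclotomicExtension.isGalois {7} ℚ K
  apply RingOfIntegers.isPrincipalIdealRing_of_isPrincipal_of_lt_or_isPrincipal_of_mem_primesOver_of_mem_Icc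
  intro q hq hqp
  have hM := minkBound_seven K
  change ∃ P ∈ primesOver (span {(q : ℤ)}) (𝓞 K),
      ⌊minkBound K⌋₊ < q ^ P.inertiaDeg ℤ ∨ Submodule.IsPrincipal P
  have hq4 : q ≤ 4 := (Finset.mem_Icc.mp hq).2.trans hM
  have : Fact q.Prime := ⟨hqp⟩
  obtain ⟨⟨P, hP1, hP2⟩⟩ := (span {(q : ℤ)}).nonempty_primesOver (S := 𝓞 K)
  have h7 : q ≠ 7 := by omega
  refine ⟨P, ⟨hP1, hP2⟩, Or.inl ?_⟩
  have hndvd : ¬ q ∣ 7 := by
    intro hd
    exact h7 ((Nat.prime_dvd_prime_iff_eq hqp (by norm_num)).mp hd)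
  rw [inertiaDeg_eq_of_not_dvd (m := 7) q K P hndvd]
  apply lt_of_le_of_lt hM
  apply lt_pow_orderOf_of_check (B := 3) ((Nat.coprime_primes hqp (by norm_num)).mpr h7)
    hqp.two_le (by norm_num)
  intro j hj hj1 hj2
  exact check_seven q (by omega) j hj ⟨hqp, h7, hj1, hj2⟩

end Fermat.Agent.FLTSmall
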