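import Fermat.Agent.FLTSmall.KummerCert5
import Fermat.Agent.FLTSmall.KummerCert7
import Fermat.Agent.FLTSmall.KummerCert11
import Fermat.Agent.FLTSmall.KummerCert13

/-!
# FLTSmall / Kummer's lemma for `p ∈ {5, 7, 11, 13}`  (OWNER: helper2)

A unit of `ℤ[ζ_p]` which is congruent to a rational integer modulo `p` is a `p`-th power of a unit.
See `KummerDlog.lean` for the strategy (logarithmic derivative modulo `p` + Dirichlet's unit theorem
+ an explicit rank computation with cyclotomic units).
-/

set_option autoImplicit false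

open NumberField

namespace Fermat.Agent.FLTSmall

/-- **Kummer's lemma** for the regular primes `5, 7, 11, 13`. -/
theorem kummer_lemma {p : ℕ} [Fact p.Prime] (hp : p = 5 ∨ p = 7 ∨ p = 11 ∨ p = 13)
    {K : Type*} [Field K] [NumberField K] [IsCyclotomicExtension {p} ℚ K]
    (u : (𝓞 K)ˣ) (a : ℤ) (h : (p : 𝓞 K) ∣ (u : 𝓞 K) - a) : ∃ v : (𝓞 K)ˣ, u = v ^ p := by
  rcases hp with rfl | rfl | rfl | rfl
  · exact kummer_five u a h
  · exact kummer_seven u a h
  · exact kummer_eleven u a h
  · exact kummer_thirteen u a h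

end Fermat.Agent.FLTSmall
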