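import Mathlib

/-!
# Tools for proving that `ℤ[ζ_p]` is a PID

Minkowski bound bookkeeping, inertia degrees via `orderOf`, and a criterion for a prime
`(q, ζ - a)` to be principal.
-/

namespace Fermat.Agent.FLTSmall

open NumberField Polynomial InfinitePlace Nat Real Ideal IsCyclotomicExtension.Rat cyclotomic
open NumberField.Ideal RingOfIntegers
open scoped NumberField

universe u

/-- Minkowski bound (as in Mathlib's `ClassNumber` file). -/
noncomputable abbrev minkBound (K : Type*) [Field K] [NumberField K] : ℝ :=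
  (4 / π) ^ nrComplexPlaces K *
    ((Module.finrank ℚ K)! / (Module.finrank ℚ K) ^ (Module.finrank ℚ K) * √|discr K|)

section general

variable (p : ℕ) [hp : Fact p.Prime] (K : Type u) [Field K] [NumberField K]
  [hK : IsCyclotomicExtension {p} ℚ K]

/-- The chosen primitive root in `𝓞 K`. -/
noncomputable abbrev zetaInt : 𝓞 K := (IsCyclotomicExtension.zeta_spec p ℚ K).toInteger

theorem zetaInt_geom_sum : ∑ i ∈ Finset.range p, (zetaInt p K) ^ i = 0 :=
  (IsCyclotomicExtension.zeta_spec p ℚ K).toInteger_isPrimitiveRoot.geom_sum_eq_zero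
    hp.out.one_lt

theorem minpoly_zetaInt : minpoly ℤ (zetaInt p K) = cyclotomic p ℤ := by
  rw [cyclotomic_eq_minpoly (IsCyclotomicExtension.zeta_spec p ℚ K) hp.out.pos,
    ← RingOfIntegers.minpoly_coe]
  rfl

theorem not_dvd_exponent_zetaInt (q : ℕ) [Fact q.Prime] : ¬ q ∣ exponent (zetaInt p K) := by
  rw [exponent_eq_one_iff.mpr <| adjoin_singleton_eq_top (IsCyclotomicExtension.zeta_spec p ℚ K)]
  exact (Fact.out : q.Prime).not_dvd_one

/-- If `a` is a root of the `p`-th cyclotomic polynomial modulo `q`, then `(q, ζ - a)` is a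
prime of `𝓞 K` over `q`; if it equals `(α)` we get a principal prime over `q`. -/
theorem exists_principal_prime_over (q : ℕ) [hq : Fact q.Prime] (a : ℤ)
    (ha : ∑ i ∈ Finset.range p, (a : ZMod q) ^ i = 0) (α : 𝓞 K)
    (h1 : α ∈ span {(q : 𝓞 K), zetaInt p K - (a : 𝓞 K)})
    (h2 : α ∣ (q : 𝓞 K)) (h3 : α ∣ zetaInt p K - (a : 𝓞 K)) (N : ℕ) :
    ∃ P ∈ primesOver (span {(q : ℤ)}) (𝓞 K),
      N < q ^ P.inertiaDeg ℤ ∨ Submodule.IsPrincipal P := by
  have hexp := not_dvd_exponent_zetaInt p K q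
  have hQ : (X - C a : ℤ[X]).map (Int.castRingHom (ZMod q)) ∈
      monicFactorsMod (zetaInt p K) q := by
    rw [Multiset.mem_toFinset, Polynomial.mem_normalizedFactors_iff
      (map_monic_ne_zero (minpoly.monic (zetaInt p K).isIntegral))]
    have hmap : (X - C a : ℤ[X]).map (Int.castRingHom (ZMod q)) = X - C (a : ZMod q) := by
      simp
    rw [hmap]
    refine ⟨irreducible_X_sub_C _, monic_X_sub_C _, ?_⟩
    rw [minpoly_zetaInt, map_cyclotomic_int, dvd_iff_isRoot, IsRoot.def, cyclotomic_prime,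
      eval_finsetSum]
    simpa using ha
  have hspan := primesOverSpanEquivMonicFactorsMod_symm_apply_eq_span hexp hQ
  refine ⟨_, ((primesOverSpanEquivMonicFactorsMod hexp).symm ⟨_, hQ⟩).2, Or.inr ?_⟩
  rw [hspan]
  have haev : aeval (zetaInt p K) (X - C a : ℤ[X]) = zetaInt p K - (a : 𝓞 K) := by
    simp
  rw [haev]
  have : span {(q : 𝓞 K), zetaInt p K - (a : 𝓞 K)} = span {α} := by
    apply le_antisymm
    · rw [span_le]
      rintro x (rfl | rfl)
      · exact mem_span_singleton.mpr h2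
      · exact mem_span_singleton.mpr h3
    · rw [span_le]
      rintro x rfl
      exact h1
  rw [this]
  exact ⟨⟨α, rfl⟩⟩

end general

theorem lt_pow_orderOf {m q N : ℕ} [NeZero m] (hq : q.Coprime m)
    (h : ∀ j, 1 ≤ j → q ^ j ≤ N → ((q : ZMod m)) ^ j ≠ 1) :
    N < q ^ orderOf (q : ZMod m) := by
  by_contra hcon
  rw [not_lt] at hcon
  have hpos : 0 < orderOf (q : ZMod m) := by
    obtain ⟨u, hu⟩ := (ZMod.isUnit_iff_coprime q m).mpr hq
    rw [← hu, orderOf_units]
    exact orderOf_pos u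
  exact h _ hpos hcon (pow_orderOf_eq_one _)

theorem lt_pow_orderOf_of_check {m q N B : ℕ} [NeZero m] (hq : q.Coprime m) (hq2 : 2 ≤ q)
    (hB : N < 2 ^ B)
    (h : ∀ j < B, 1 ≤ j → q ^ j ≤ N → ((q : ZMod m)) ^ j ≠ 1) :
    N < q ^ orderOf (q : ZMod m) := by
  apply lt_pow_orderOf hq
  intro j hj1 hj2
  refine h j ?_ hj1 hj2
  by_contra hcon
  rw [not_lt] at hcon
  have h1 : 2 ^ B ≤ q ^ j :=
    (Nat.pow_le_pow_right (by norm_num) hcon).trans (Nat.pow_le_pow_left hq2 j)
  omega

end Fermat.Agent.FLTSmall
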